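import Fermat.Agent.Arith.Minkowski
import Fermat.Agent.Arith.RootsOfUnity
import Fermat.Agent.RT.Two.Local.Main

/-!
# The global classes of minimal lifting at two and their detection by traces

The classes are adjoint classes of trace zero, unramified outside `2N`, coboundaries on inertia at
the primes of `N` and in the local condition at two. Such a class is a coboundary as soon as
`tr (d σ · r σ)` vanishes for every `σ` fixing the roots of unity of two-power order.
-/

set_option autoImplicit false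
set_option linter.style.haveILetI false
set_option linter.unusedSectionVars false

noncomputable section

namespace Fermat.Agent.RT.Two.Select

open Fermat.Agent.Deform Fermat.Agent.Arith Fermat.Agent.CFT.Tangent Fermat.Agent.CFT.Flat
open scoped Pointwise

/-- The elements fixing all roots of unity of two-power order. -/
def fixTwo : Subgroup GQ where
  carrier := {σ | ∀ (k : ℕ) (μ : QBar), μ ^ 2 ^ k = 1 → σ μ = μ}
  one_mem' _ _ _ := rfl
  mul_mem' {a b} ha hb k μ h := by rw [AlgEquiv.mul_apply, hb k μ h, ha k μ h]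
  inv_mem' {a} ha k μ h := by
    conv_lhs => rw [← ha k μ h]
    exact a.symm_apply_apply μ

theorem mem_fixTwo {σ : GQ} :
    σ ∈ fixTwo ↔ ∀ (k : ℕ) (μ : QBar), μ ^ 2 ^ k = 1 → σ μ = μ := Iff.rfl

/-- Inertia at an odd prime fixes the roots of unity of two-power order. -/
theorem inertia_le_fixTwo {q : ℕ} (hq : q.Prime) (hq2 : q ≠ 2) {A : ValuationSubring QBar}
    (hA : A.LiesOverPrime q) {τ : GQ} (hτ : τ ∈ A.inertiaSubgroupIn ℚ) : τ ∈ fixTwo := fun _ _ h =>
  inertia_root hA hq hτ h fun hd =>
    hq2 ((Nat.prime_dvd_prime_iff_eq hq Nat.prime_two).mp (hq.dvd_of_dvd_pow hd))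

/-- A commutator fixes every root of unity. -/
theorem commutator_mem_fixTwo (g h : GQ) : g * h * g⁻¹ * h⁻¹ ∈ fixTwo := by
  intro k μ hμ
  haveI : NeZero (2 ^ k) := ⟨pow_ne_zero _ two_ne_zero⟩
  obtain ⟨ζ, hζ⟩ := HasEnoughRootsOfUnity.exists_primitiveRoot QBar (2 ^ k)
  have hex : ∀ σ : GQ, ∃ i : ℕ, σ ζ = ζ ^ i := fun σ => by
    obtain ⟨i, -, hi⟩ := hζ.eq_pow_of_pow_eq_one (ξ := σ ζ) (by
      rw [← map_pow, hζ.pow_eq_one, map_one])
    exact ⟨i, hi.symm⟩
  obtain ⟨a, ha⟩ := hex g
  obtain ⟨b, hb⟩ := hex h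
  have hfix : (g * h * g⁻¹ * h⁻¹) ζ = ζ := by
    obtain ⟨a', ha'⟩ := hex g⁻¹
    obtain ⟨b', hb'⟩ := hex h⁻¹
    have e1 : g (h ζ) = h (g ζ) := by rw [hb, map_pow, ha, map_pow, hb, ← pow_mul, ← pow_mul,
      mul_comm]
    have e2 : g⁻¹ (h⁻¹ ζ) = h⁻¹ (g⁻¹ ζ) := by rw [hb', map_pow, ha', map_pow, hb', ← pow_mul,
      ← pow_mul, mul_comm]
    rw [AlgEquiv.mul_apply, AlgEquiv.mul_apply, AlgEquiv.mul_apply, e2, ← AlgEquiv.mul_apply h,
      mul_inv_cancel, AlgEquiv.one_apply, ← AlgEquiv.mul_apply g, mul_inv_cancel,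
      AlgEquiv.one_apply]
  obtain ⟨i, -, rfl⟩ := hζ.eq_pow_of_pow_eq_one hμ
  rw [map_pow, hfix]

theorem fixTwo_conj {u : GQ} (hu : u ∈ fixTwo) (g : GQ) : g * u * g⁻¹ ∈ fixTwo := by
  have := mul_mem (commutator_mem_fixTwo g u) hu
  simpa [mul_assoc] using this

instance fixTwo_normal : fixTwo.Normal := ⟨fun _ hu g => fixTwo_conj hu g⟩

/-- The standing hypotheses on the residual representation. -/
structure IsResidualTwo (r₀ : GQ →* M2 (ZMod 2)) (N : ℕ) : Prop where
  ss : Local.IsSupersingularTwo r₀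
  span : Submodule.span (ZMod 2) (Set.range r₀) = ⊤
  conj : r₀ complexConjugation ≠ 1
  odd : Odd N
  one_lt : 1 < N
  unramified : ∀ v : ℕ, v.Prime → ¬ v ∣ 2 * N → ∀ A : ValuationSubring QBar,
    A.LiesOverPrime v → ∀ σ ∈ A.inertiaSubgroupIn ℚ, r₀ σ = 1
  ramified : ∀ v : ℕ, v.Prime → v ∣ N → ∀ A : ValuationSubring QBar, A.LiesOverPrime v →
    ∃ τ ∈ A.inertiaSubgroupIn ℚ, r₀ τ ≠ 1
  unipotent : ∀ v : ℕ, v.Prime → v ∣ N → ∀ A : ValuationSubring QBar, A.LiesOverPrime v →
    ∀ τ ∈ A.inertiaSubgroupIn ℚ, r₀ τ ^ 2 = 1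

variable {k : Type} [Field k] [Algebra (ZMod 2) k]

/-- **The global classes.** -/
def classes (r : GQ →* M2 k) (N : ℕ) : Submodule k (GQ → M2 k) where
  carrier := {c | c ∈ Local.localTwo r ∧ (∀ g, (c g).trace = 0) ∧
    (∀ v : ℕ, v.Prime → ¬ v ∣ 2 * N → ∀ A : ValuationSubring QBar, A.LiesOverPrime v →
      ∀ τ ∈ A.inertiaSubgroupIn ℚ, c τ = 0) ∧
    ∀ v : ℕ, v.Prime → v ∣ N → ∀ A : ValuationSubring QBar, A.LiesOverPrime v →
      ∃ m : M2 k, ∀ τ ∈ A.inertiaSubgroupIn ℚ, c τ = r τ * m * r τ⁻¹ - m}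
  zero_mem' := ⟨zero_mem _, fun g => by simp, fun _ _ _ _ _ _ _ => rfl,
    fun _ _ _ _ _ => ⟨0, fun _ _ => by simp⟩⟩
  add_mem' := by
    rintro a b ⟨a1, a2, a3, a4⟩ ⟨b1, b2, b3, b4⟩
    refine ⟨add_mem a1 b1, fun g => by rw [Pi.add_apply, Matrix.trace_add, a2, b2, add_zero],
      fun v hv hvN A hA τ hτ => by rw [Pi.add_apply, a3 v hv hvN A hA τ hτ,
        b3 v hv hvN A hA τ hτ, add_zero], fun v hv hvN A hA => ?_⟩
    obtain ⟨m, hm⟩ := a4 v hv hvN A hA
    obtain ⟨n, hn⟩ := b4 v hv hvN A hA
    exact ⟨m + n, fun τ hτ => by rw [Pi.add_apply, hm τ hτ, hn τ hτ, mul_add, add_mul]; abel⟩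
  smul_mem' := by
    rintro s a ⟨a1, a2, a3, a4⟩
    refine ⟨Submodule.smul_mem _ s a1,
      fun g => by rw [Pi.smul_apply, Matrix.trace_smul, a2, smul_zero],
      fun v hv hvN A hA τ hτ => by rw [Pi.smul_apply, a3 v hv hvN A hA τ hτ, smul_zero],
      fun v hv hvN A hA => ?_⟩
    obtain ⟨m, hm⟩ := a4 v hv hvN A hA
    exact ⟨s • m, fun τ hτ => by
      rw [Pi.smul_apply, hm τ hτ, mul_smul_comm, smul_mul_assoc, smul_sub]⟩

/-- The derivative of the trace. -/
def phi (r : GQ →* M2 k) (σ : GQ) : (GQ → M2 k) →ₗ[k] k where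
  toFun c := (c σ * r σ).trace
  map_add' a b := by rw [Pi.add_apply, add_mul, Matrix.trace_add]
  map_smul' s a := by rw [Pi.smul_apply, smul_mul_assoc, Matrix.trace_smul, RingHom.id_apply]

theorem phi_apply (r : GQ →* M2 k) (σ : GQ) (c : GQ → M2 k) : phi r σ c = (c σ * r σ).trace := rfl

theorem eq_of_trace_mul_eq {e e' : M2 k} (h : ∀ M : M2 k, (e * M).trace = (e' * M).trace) :
    e = e' :=
  Matrix.ext_iff_trace_mul_right.mpr h

/-- A cocycle whose trace derivative vanishes on a subgroup with full span is a coboundary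
there. -/
theorem exists_cobd_of_trace {G : Subgroup GQ} {r : GQ →* M2 k} {d : GQ → M2 k}
    (hd : IsAdCocycle r d) (hspan : Submodule.span k (Set.range fun g : G => r g) = ⊤)
    (h : ∀ g ∈ G, (d g * r g).trace = 0) :
    ∃ X : M2 k, ∀ g ∈ G, d g = r g * X * r g⁻¹ - X := by
  classical
  let lin : (G →₀ k) →ₗ[k] M2 k := Finsupp.linearCombination k fun g : G => r g
  let der : (G →₀ k) →ₗ[k] M2 k := Finsupp.linearCombination k fun g : G => d g * r g
  have hprod : ∀ g g' : GQ, d (g * g') * r (g * g') = r g * (d g' * r g') + d g * r g * r g' := by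
    intro g g'
    rw [hd, map_mul, add_mul]
    congr 1
    · rw [mul_assoc (r g * d g'), ← mul_assoc (r g⁻¹), CFT.Tangent.map_inv_mul, one_mul]
      simp only [mul_assoc]
    · rw [mul_assoc]
  have hker : ∀ a, lin a = 0 → der a = 0 := fun a ha => by
    refine eq_of_trace_mul_eq fun M => ?_
    rw [zero_mul, Matrix.trace_zero]
    have hM : M ∈ Submodule.span k (Set.range fun g : G => r g) := hspan ▸ Submodule.mem_top
    induction hM using Submodule.span_induction with
    | mem x hx =>
      obtain ⟨g, rfl⟩ := hx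
      have e1 : der a * r g = a.sum fun i t => t • (d i * r i * r g) := by
        simp only [der, Finsupp.linearCombination_apply, Finsupp.sum, Finset.sum_mul,
          smul_mul_assoc]
      have e2 : lin a * (d g * r g) = a.sum fun i t => t • (r i * (d g * r g)) := by
        simp only [lin, Finsupp.linearCombination_apply, Finsupp.sum, Finset.sum_mul,
          smul_mul_assoc]
      have hsum : (der a * r g).trace + (lin a * (d g * r g)).trace = 0 := by
        rw [← Matrix.trace_add, e1, e2, ← Finsupp.sum_add, Finsupp.sum, Matrix.trace_sum]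
        refine Finset.sum_eq_zero fun i _ => ?_
        rw [← smul_add, Matrix.trace_smul, add_comm, ← hprod, h _ (mul_mem i.2 g.2), smul_zero]
      rwa [ha, zero_mul, Matrix.trace_zero, add_zero] at hsum
    | zero => simp
    | add x y _ _ hx hy => rw [mul_add, Matrix.trace_add, hx, hy, add_zero]
    | smul c x _ hx => rw [mul_smul_comm, Matrix.trace_smul, hx, smul_zero]
  have hsurj : Function.Surjective lin := by
    rw [← LinearMap.range_eq_top, Finsupp.range_linearCombination]
    exact hspan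
  choose sec hsec using hsurj
  let D : M2 k → M2 k := fun M => der (sec M)
  have hD : ∀ a, D (lin a) = der a := fun a => by
    have := hker (sec (lin a) - a) (by rw [map_sub, hsec, sub_self])
    rwa [map_sub, sub_eq_zero] at this
  have hDadd : ∀ M M', D (M + M') = D M + D M' := fun M M' => by
    rw [show M + M' = lin (sec M + sec M') by rw [map_add, hsec, hsec], hD, map_add]
  have hDsmul : ∀ (c : k) M, D (c • M) = c • D M := fun c M => by
    rw [show c • M = lin (c • sec M) by rw [map_smul, hsec], hD, map_smul]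
  let Dl : M2 k →ₗ[k] M2 k := { toFun := D, map_add' := hDadd, map_smul' := hDsmul }
  have hDr : ∀ g : G, D (r g) = d g * r g := fun g => by
    have h1 : lin (Finsupp.single g 1) = r g := by simp [lin]
    calc D (r g) = D (lin (Finsupp.single g 1)) := by rw [h1]
      _ = _ := by rw [hD]; simp [der]
  have hleib : ∀ x y, Dl (x * y) = x * Dl y + Dl x * y := by
    intro x y
    have hx : x ∈ Submodule.span k (Set.range fun g : G => r g) := hspan ▸ Submodule.mem_top
    induction hx using Submodule.span_induction with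
    | mem x hx =>
      obtain ⟨g, rfl⟩ := hx
      have hy : y ∈ Submodule.span k (Set.range fun g : G => r g) := hspan ▸ Submodule.mem_top
      induction hy using Submodule.span_induction with
      | mem y hy =>
        obtain ⟨g', rfl⟩ := hy
        show D (r g * r g') = r g * D (r g') + D (r g) * r g'
        rw [hDr g, hDr g', show r g * r g' = r ((g * g' : G) : GQ) by rw [Subgroup.coe_mul, map_mul],
          hDr (g * g'), Subgroup.coe_mul, hprod]
      | zero => simp
      | add a b _ _ ha hb => simp only [mul_add, map_add, ha, hb]; abel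
      | smul c a _ ha => simp only [mul_smul_comm, map_smul, ha, smul_add]
    | zero => simp
    | add a b _ _ ha hb => simp only [add_mul, map_add, ha, hb]; abel
    | smul c a _ ha => simp only [smul_mul_assoc, map_smul, ha, smul_add]
  -- the derivation is inner
  let E : Fin 2 → Fin 2 → M2 k := fun i j => Matrix.single i j 1
  let X : M2 k := Dl (E 0 0) * E 0 0 + Dl (E 1 0) * E 0 1
  have hinner : ∀ M, Dl M = X * M - M * X := by
    have hbasis : ∀ a b, Dl (E a b) = X * E a b - E a b * X := by
      have h01 : ∀ i j l m : Fin 2, E i j * E l m = if j = l then E i m else 0 := fun i j l m => by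
        by_cases hjl : j = l
        · subst hjl; simp [E]
        · rw [if_neg hjl]; simp [E, Matrix.single_mul_single_of_ne _ _ _ _ hjl]
      intro a b
      have hone : E 0 0 + E 1 1 = 1 := by
        ext i j; fin_cases i <;> fin_cases j <;> simp [E]
      have h1 : X * E a b = Dl (E a 0) * E 0 b := by
        simp only [X, add_mul, mul_assoc, h01]
        fin_cases a <;> simp
      have h2 : E a b * X = Dl (E a 0) * E 0 b - Dl (E a b) := by
        have e : ∀ i, E a b * (Dl (E i 0) * E 0 i) =
            (if b = i then Dl (E a 0) * E 0 i else 0) - Dl (E a b) * E i i := fun i => by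
          rw [eq_sub_iff_add_eq, ← mul_assoc]
          have := congrArg (· * E 0 i) (hleib (E a b) (E i 0))
          simp only [add_mul, mul_assoc, h01, if_true] at this
          rw [mul_assoc, ← this]
          split_ifs with hb
          · rfl
          · simp
        calc E a b * X = E a b * (Dl (E 0 0) * E 0 0) + E a b * (Dl (E 1 0) * E 0 1) := mul_add _ _ _
          _ = _ := by
            rw [e 0, e 1, sub_add_sub_comm, ← mul_add, hone, mul_one]
            congr 1
            fin_cases b <;> simp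
      rw [h1, h2, sub_sub_cancel]
    intro M
    have hM : M = ∑ a, ∑ b, M a b • E a b := by
      conv_lhs => rw [Matrix.matrix_eq_sum_single M]
      simp [E, Matrix.smul_single]
    rw [hM]
    simp only [map_sum, map_smul, hbasis, Finset.mul_sum, Finset.sum_mul, mul_smul_comm,
      smul_mul_assoc, smul_sub, Finset.sum_sub_distrib]
  refine ⟨-X, fun g hg => ?_⟩
  have e := (hDr ⟨g, hg⟩).symm.trans (hinner _)
  calc d g = d g * r g * r g⁻¹ := by rw [mul_assoc, CFT.Tangent.map_mul_inv, mul_one]
    _ = _ := by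
      rw [e, sub_mul, mul_assoc X, CFT.Tangent.map_mul_inv, mul_one]
      simp [mul_assoc]
      abel

set_option synthInstance.maxSize 2000 in
set_option synthInstance.maxHeartbeats 400000 in
theorem order_three : ∀ s : M2 (ZMod 2), s 0 0 + s 1 1 = 1 →
    s 0 0 * s 1 1 + s 0 1 * s 1 0 = 1 → s ^ 3 = 1 ∧ s ≠ 1 := by decide

set_option synthInstance.maxSize 2000 in
set_option synthInstance.maxHeartbeats 400000 in
theorem commutator_two : ∀ s t : M2 (ZMod 2), s ^ 3 = 1 → s ≠ 1 → t ^ 2 = 1 → t ≠ 1 →
    s * t * (s * s) * t = s * s := by decide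

set_option synthInstance.maxSize 2000 in
set_option synthInstance.maxHeartbeats 400000 in
theorem generated_two : ∀ s g : M2 (ZMod 2), s ^ 3 = 1 → s ≠ 1 →
    g 0 0 * g 1 1 + g 0 1 * g 1 0 = 1 →
    g = 1 ∨ g = s ∨ g = s * s ∨ g ^ 2 = 1 := by decide

set_option synthInstance.maxSize 2000 in
set_option synthInstance.maxHeartbeats 400000 in
theorem transpositions_two : ∀ s t : M2 (ZMod 2), s ^ 3 = 1 → s ≠ 1 → t ^ 2 = 1 → t ≠ 1 →
    ∀ g : M2 (ZMod 2), g ^ 2 = 1 → g ≠ 1 → g = t ∨ g = s * t ∨ g = s * s * t := by decide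

namespace IsResidualTwo

variable {r₀ : GQ →* M2 (ZMod 2)} {N : ℕ} (hR : IsResidualTwo r₀ N)
include hR

theorem det_eq_one (g : GQ) : (r₀ g).det = 1 :=
  Fin.eq_one_of_ne_zero _ (CFT.Tangent.det_map_ne_zero r₀ g)

theorem det_fin_two' (g : GQ) : r₀ g 0 0 * r₀ g 1 1 + r₀ g 0 1 * r₀ g 1 0 = 1 := by
  have h := hR.det_eq_one g
  rwa [Matrix.det_fin_two, CharTwo.sub_eq_add] at h

theorem exists_trace_one : ∃ g : GQ, (r₀ g).trace = 1 := by
  by_contra hc
  push Not at hc
  have key : ∀ x : M2 (ZMod 2), x.trace = 0 := by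
    intro x
    have hx : x ∈ Submodule.span (ZMod 2) (Set.range r₀) := hR.span ▸ Submodule.mem_top
    induction hx using Submodule.span_induction with
    | mem a ha =>
      obtain ⟨g, rfl⟩ := ha
      exact (Local.zmod_two_cases _).resolve_right (hc g)
    | zero => simp
    | add a a' _ _ ha ha' => rw [Matrix.trace_add, ha, ha', add_zero]
    | smul c a _ ha => rw [Matrix.trace_smul, ha, smul_zero]
  exact absurd (key !![1, 0; 0, 0]) (by decide)

/-- The image of `fixTwo` is the whole image. -/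
theorem exists_fixTwo (g : GQ) : ∃ u ∈ fixTwo, r₀ u = r₀ g := by
  obtain ⟨a, ha⟩ := hR.exists_trace_one
  obtain ⟨ha3, ha1⟩ := order_three (r₀ a) (by simpa [Matrix.trace_fin_two] using ha)
    (hR.det_fin_two' a)
  obtain ⟨q, hq, hqN⟩ := Nat.exists_prime_and_dvd hR.one_lt.ne'
  have hq2 : q ≠ 2 := fun e => by
    rw [e] at hqN
    exact (Nat.not_even_iff_odd.mpr hR.odd) (even_iff_two_dvd.mpr hqN)
  obtain ⟨A, hA⟩ := exists_liesOverPrime hq
  obtain ⟨τ, hτ, hτ1⟩ := hR.ramified q hq hqN A hA
  have hτ2 := hR.unipotent q hq hqN A hA τ hτ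
  have hτF : τ ∈ fixTwo := inertia_le_fixTwo hq hq2 hA hτ
  set s := a * τ * a⁻¹ * τ⁻¹
  have hs : s ∈ fixTwo := commutator_mem_fixTwo a τ
  have hinv : ∀ (x : GQ) (y : M2 (ZMod 2)), r₀ x * y = 1 → r₀ x⁻¹ = y := fun x y h => by
    rw [← mul_one (r₀ x⁻¹), ← h, ← mul_assoc, CFT.Tangent.map_inv_mul, one_mul]
  have hsr : r₀ s = r₀ a * r₀ a := by
    simp only [s, map_mul]
    rw [hinv a (r₀ a * r₀ a) (by rw [← pow_two, ← pow_succ', ha3]),
      hinv τ (r₀ τ) (by rw [← pow_two, hτ2]), commutator_two _ _ ha3 ha1 hτ2 hτ1]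
  have h4 : r₀ a * r₀ a * (r₀ a * r₀ a) = r₀ a := by
    rw [mul_assoc, ← mul_assoc (r₀ a) (r₀ a) (r₀ a), ← pow_two, ← pow_succ, ha3, mul_one]
  rcases generated_two _ (r₀ g) ha3 ha1 (hR.det_fin_two' g) with e | e | e | e
  · exact ⟨1, one_mem _, by rw [map_one, e]⟩
  · exact ⟨s * s, mul_mem hs hs, by rw [map_mul, hsr, h4, e]⟩
  · exact ⟨s, hs, by rw [hsr, e]⟩
  · by_cases hg1 : r₀ g = 1
    · exact ⟨1, one_mem _, by rw [map_one, hg1]⟩
    rcases transpositions_two _ _ ha3 ha1 hτ2 hτ1 _ e hg1 with e' | e' | e'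
    · exact ⟨τ, hτF, e'.symm⟩
    · exact ⟨s * s * τ, mul_mem (mul_mem hs hs) hτF, by rw [map_mul, map_mul, hsr, h4, e']⟩
    · exact ⟨s * τ, mul_mem hs hτF, by rw [map_mul, hsr, e']⟩

theorem span_fixTwo : Submodule.span k (Set.range fun u : fixTwo => Local.extRep k r₀ u) = ⊤ := by
  have hsub : ∀ g : GQ, Local.extRep k r₀ g ∈
      Submodule.span k (Set.range fun u : fixTwo => Local.extRep k r₀ u) := fun g => by
    obtain ⟨u, hu, e⟩ := hR.exists_fixTwo g
    exact Submodule.subset_span ⟨⟨u, hu⟩, congrArg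
      (RingHom.mapMatrix (algebraMap (ZMod 2) k)) e⟩
  refine eq_top_iff.mpr fun M _ => ?_
  have hmap : ∀ m : M2 (ZMod 2), m.map (algebraMap (ZMod 2) k) ∈
      Submodule.span k (Set.range fun u : fixTwo => Local.extRep k r₀ u) := fun m => by
    have hm : m ∈ Submodule.span (ZMod 2) (Set.range r₀) := hR.span ▸ Submodule.mem_top
    induction hm using Submodule.span_induction with
    | mem x hx => obtain ⟨g, rfl⟩ := hx; exact hsub g
    | zero => rw [Matrix.map_zero _ (map_zero _)]; exact zero_mem _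
    | add a b _ _ ha hb => rw [Matrix.map_add _ (map_add _)]; exact add_mem ha hb
    | smul c a _ ha =>
      rw [Matrix.map_smul' _ c a (map_mul (algebraMap (ZMod 2) k))]
      exact Submodule.smul_mem _ _ ha
  rw [Matrix.matrix_eq_sum_single M]
  refine Submodule.sum_mem _ fun i _ => Submodule.sum_mem _ fun j _ => ?_
  have := Submodule.smul_mem _ (M i j) (hmap (Matrix.single i j 1))
  simpa [Matrix.smul_single] using this

/-- **Detection.** A class whose trace derivative vanishes on `fixTwo` is a coboundary. -/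
theorem exists_cobd {d : GQ → M2 k} (hd : d ∈ classes (Local.extRep k r₀) N)
    (h : ∀ σ ∈ fixTwo, phi (Local.extRep k r₀) σ d = 0) :
    ∃ X : M2 k, d = cobdLin (Local.extRep k r₀) X := by
  set r := Local.extRep k r₀
  haveI : CharP k 2 := Local.charP_two (k := k)
  obtain ⟨hd2, htr, hunr, -⟩ := hd
  have hcoc : IsAdCocycle r d := hd2.1
  obtain ⟨X, hX⟩ := exists_cobd_of_trace hcoc hR.span_fixTwo h
  set e : GQ → M2 k := d - cobdLin r X with hedef
  have he : IsAdCocycle r e := fun g g' => by
    simp only [hedef, Pi.sub_apply, hcoc g g', isAdCocycle_cobdLin r X g g', mul_sub, sub_mul]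
    abel
  have he0 : ∀ u ∈ fixTwo, e u = 0 := fun u hu => by
    rw [hedef, Pi.sub_apply, hX u hu, cobdLin_apply, sub_self]
  have hcomm : ∀ g, ∀ u ∈ fixTwo, r u * e g = e g * r u := by
    intro g u hu
    have h1 : e (u * g) = r u * e g * r u⁻¹ := by rw [he, he0 u hu, add_zero]
    have h2 : e (u * g) = e g := by
      rw [show u * g = g * (g⁻¹ * u * g) by group, he,
        he0 _ (by simpa using fixTwo_conj hu g⁻¹), mul_zero, zero_mul, zero_add]
    calc r u * e g = r u * e g * r u⁻¹ * r u := by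
          rw [mul_assoc, CFT.Tangent.map_inv_mul, mul_one]
      _ = e g * r u := by rw [← h1, h2]
  have hall : ∀ g M, M * e g = e g * M := fun g M => by
    have hM : M ∈ Submodule.span k (Set.range fun u : fixTwo => r u) :=
      (hR.span_fixTwo (k := k)) ▸ Submodule.mem_top
    induction hM using Submodule.span_induction with
    | mem x hx => obtain ⟨u, rfl⟩ := hx; exact hcomm g u u.2
    | zero => simp
    | add a b _ _ ha hb => rw [mul_add, add_mul, ha, hb]
    | smul c a _ ha => rw [mul_smul_comm, smul_mul_assoc, ha]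
  have hscal : ∀ g, e g = e g 0 0 • 1 := fun g => by
    have h01 := hall g (Matrix.single 0 1 1)
    have h10 := hall g (Matrix.single 1 0 1)
    have a1 := congrFun (congrFun h01 0) 0
    have a2 := congrFun (congrFun h01 0) 1
    have a3 := congrFun (congrFun h10 0) 0
    simp [Matrix.mul_apply, Fin.sum_univ_two] at a1 a2 a3
    ext i j
    fin_cases i <;> fin_cases j <;> simp [a1, a2, a3.symm]
  let χ : GQ →* Multiplicative k :=
    { toFun := fun g => Multiplicative.ofAdd (e g 0 0)
      map_one' := by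
        have := he0 1 (one_mem _)
        rw [this]; rfl
      map_mul' := fun g g' => by
        rw [← ofAdd_add, add_comm]
        refine congrArg Multiplicative.ofAdd ?_
        rw [he g g', hscal g', mul_smul_comm, mul_one, smul_mul_assoc, CFT.Tangent.map_mul_inv]
        simp }
  have hχ : ∀ g, χ g = 1 ↔ e g = 0 := fun g => by
    refine ⟨fun h => ?_, fun h => ?_⟩
    · have : e g 0 0 = 0 := Multiplicative.ofAdd.injective h
      rw [hscal g, this, zero_smul]
    · show Multiplicative.ofAdd (e g 0 0) = 1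
      rw [h]; rfl
  have hχ1 : χ = 1 := by
    refine eq_one_of_trivial_on_inertia' χ ?_ fun q hq A hA σ hσ => ?_
    · obtain ⟨L₁, hL₁, h₁⟩ := hd2.2.1
      obtain ⟨L₂, hL₂, h₂⟩ := hR.ss.finite
      haveI := hL₁
      haveI := hL₂
      refine ⟨L₁ ⊔ L₂, IntermediateField.finiteDimensional_sup L₁ L₂, fun σ hσ => (hχ σ).mpr ?_⟩
      have hr : r σ = 1 := Local.extRep_eq_one (h₂ σ fun x hx => hσ x (le_sup_right (a := L₁) hx))
      have hr' : r σ⁻¹ = 1 := by
        have := CFT.Tangent.map_mul_inv r σ; rwa [hr, one_mul] at this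
      rw [hedef, Pi.sub_apply, h₁ σ fun x hx => hσ x (le_sup_left (b := L₂) hx), cobdLin_apply,
        hr, hr', one_mul, mul_one, sub_self, sub_self]
    · by_cases hq2 : q = 2
      · subst hq2
        obtain ⟨a, ha⟩ := exists_smul_eq hA (Fermat.Agent.CFT.Local.padicPlace_liesOverPrime 2) hq
        have hσ' : a * σ * a⁻¹ ∈ inG 2 := by
          have := (mem_inertia_smul_iff (g := a) (A := A)).mpr hσ
          rwa [ha] at this
        obtain ⟨τ, φ, P⟩ := Local.exists_isPair
        have hτ1 : r₀ τ ≠ 1 := fun h => by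
          have h3 := hR.ss.sq_add P.gen
          rw [h, mul_one] at h3
          exact absurd h3 (by decide)
        have hsq := hR.ss.sq_add_ext (k := k) P.gen
        have hcd := Local.component_eq_zero_of_mem hR.ss hd2 P.gen.mem hτ1 _ hσ'
        set g := a * σ * a⁻¹
        have hcob : Local.component (r τ) (cobdLin r X g) = 0 := by
          obtain ⟨i, hi⟩ := hR.ss.eq_pow P.gen hσ'
          have hg : r g = r τ ^ i := by
            show RingHom.mapMatrix (algebraMap (ZMod 2) k) (r₀ g) = _
            rw [hi, map_pow]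
            rfl
          have hc3 : r τ * (r τ * r τ) = 1 := Local.cube_eq_one' hsq
          have hinv : ∀ y, r g * y = 1 → r g⁻¹ = y := fun y hy => by
            rw [← mul_one (r g⁻¹), ← hy, ← mul_assoc, CFT.Tangent.map_inv_mul, one_mul]
          rw [cobdLin_apply, ← Local.compHom_apply, map_sub, sub_eq_zero, Local.compHom_apply,
            Local.compHom_apply]
          rcases Local.pow_cases (Local.cube_eq_one hsq) i with e | e | e <;> rw [e] at hg
          · rw [hg, hinv 1 (by rw [hg, one_mul]), one_mul, mul_one]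
          · rw [hg, hinv (r τ * r τ) (by rw [hg, hc3]), Local.component_conj hsq]
          · rw [hg, hinv (r τ) (by rw [hg, mul_assoc, hc3])]
            conv_rhs => rw [← Local.component_conj hsq X, ← Local.component_conj hsq]
            rw [show r τ * (r τ * X * (r τ * r τ)) * (r τ * r τ) =
              r τ * r τ * X * ((r τ * r τ) * (r τ * r τ)) by simp only [mul_assoc], Local.sq_sq hsq]
        have h1 : e g = 0 := by
          have h3 : Local.component (r τ) (e g) = 0 := by
            rw [hedef, Pi.sub_apply, ← Local.compHom_apply, map_sub, Local.compHom_apply,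
              Local.compHom_apply, hcd, hcob, sub_zero]
          have hone : Local.component (r τ) (1 : M2 k) = 1 := by
            rw [Local.component, mul_one, mul_one, Local.cube_eq_one' hsq, Local.cube_eq_one hsq,
              add_assoc, Local.add_self_zero, add_zero]
          rw [hscal g, Local.component_smul, hone] at h3
          rw [hscal g]; exact h3
        have h2 : χ σ = χ (a * σ * a⁻¹) := by
          rw [map_mul, map_mul, map_inv, mul_comm (χ a), mul_inv_cancel_right]
        rw [h2, (hχ _).mpr h1]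
      · exact (hχ σ).mpr (he0 σ (inertia_le_fixTwo hq hq2 hA hσ))
  refine ⟨X, funext fun g => sub_eq_zero.mp ((hχ g).mp (by rw [hχ1]; rfl))⟩

end IsResidualTwo

end Fermat.Agent.RT.Two.Select

end
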