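import Fermat.Agent.MordellWeil.SquareClasses
import Fermat.Agent.RT.Two.Recip.Kummer
import Fermat.Agent.RT.Two.Select.Space

/-!
# Finiteness of the global classes

On the kernel of the residual representation a class is a vector of quadratic characters unramified
outside `2N`; finitely many square classes give these.
-/

set_option autoImplicit false
set_option linter.style.haveILetI false

noncomputable section

namespace Fermat.Agent.RT.Two.Select

open Fermat.Agent.Deform Fermat.Agent.Arith Fermat.Agent.CFT.Tangent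
open Fermat.Agent.Mazur.Eisenstein (ordAt ordAt_pow exists_int_ordAt)

variable {k : Type} [Field k] [Algebra (ZMod 2) k] [Finite k] {r₀ : GQ →* M2 (ZMod 2)} {N : ℕ}

/-- **The classes form a finite set.** -/
theorem finite_classes (hR : IsResidualTwo r₀ N) :
    Finite (classes (Local.extRep k r₀) N) := by
  classical
  haveI : IsGalois ℚ QBar := qBar_isGalois
  obtain ⟨L₀, hL₀, hr₀⟩ := hR.ss.finite
  haveI := hL₀
  set U : Subgroup GQ := r₀.ker with hUdef
  have hUo : IsOpen (U : Set GQ) := Subgroup.isOpen_mono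
    (fun σ hσ => hr₀ σ ((IntermediateField.mem_fixingSubgroup_iff _ _).mp hσ))
    (IntermediateField.fixingSubgroup_isOpen L₀)
  haveI : U.Normal := MonoidHom.normal_ker r₀
  haveI : Finite (GQ ⧸ U) := Subgroup.quotient_finite_of_isOpen U hUo
  haveI : Fintype (GQ ⧸ U) := Fintype.ofFinite _
  set L := IntermediateField.fixedField U
  have hLU : L.fixingSubgroup = U :=
    InfiniteGalois.fixingSubgroup_fixedField ⟨U, U.isClosed_of_isOpen hUo⟩
  haveI : FiniteDimensional ℚ L :=
    (InfiniteGalois.isOpen_iff_finite L).mp (by rw [hLU]; exact hUo)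
  haveI : IsGalois ℚ L :=
    (InfiniteGalois.normal_iff_isGalois L).mp (by rw [hLU]; exact MonoidHom.normal_ker r₀)
  haveI : NumberField L := ⟨⟩
  have hunrL : MordellWeil.UnramifiedOutside L (2 * N) := fun p A hp hA hd σ hσ x hx =>
    hx ⟨σ, hR.unramified p hp hd A hA σ hσ⟩
  obtain ⟨R, hRfin, hRsq⟩ := MordellWeil.exists_finite_square_classes
    (mul_ne_zero two_ne_zero (fun h => by have := hR.one_lt; omega)) hunrL
  haveI := hRfin.to_subtype
  set r := Local.extRep k r₀ with hrdef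
  have hstab : ∀ g : GQ, g • ((1 : GQ) : GQ ⧸ U) = ((1 : GQ) : GQ ⧸ U) ↔ g ∈ U := fun g => by
    rw [MulAction.Quotient.smul_coe, smul_eq_mul, mul_one]
    exact QuotientGroup.eq_one_iff g
  have hcand : ∀ (d : classes r N) (ℓ : M2 k →+ ZMod 2), ∃ c : R,
      ∀ u ∈ U, ℓ ((d : GQ → M2 k) u) = Recip.phi (F := ZMod 2) (c : QBar) u := by
    rintro ⟨d, hd⟩ ℓ
    obtain ⟨hd2, -, hunr, -⟩ := hd
    have hcoc : IsAdCocycle r d := hd2.1
    have hU1 : ∀ u ∈ U, r u = 1 ∧ r u⁻¹ = 1 := fun u hu =>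
      ⟨Local.extRep_eq_one hu, Local.extRep_inv_eq_one hu⟩
    obtain ⟨L₁, hL₁, h₁⟩ := hd2.2.1
    haveI := hL₁
    set E := IntermediateField.normalClosure ℚ L₁ QBar
    haveI : Normal ℚ E := normalClosure.normal ℚ _ QBar
    haveI : FiniteDimensional ℚ E := normalClosure.is_finiteDimensional ℚ _ QBar
    haveI : IsGalois ℚ E := ⟨⟩
    have hfl : (fun g => ℓ (d g)) ∈ Recip.finLvl (F := ZMod 2) := by
      refine Recip.mem_finLvl.2 ⟨E.fixingSubgroup,
        (InfiniteGalois.normal_iff_isGalois E).2 inferInstance,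
        IntermediateField.fixingSubgroup_isOpen E, fun g u hu => ?_⟩
      show ℓ (d (g * u)) = ℓ (d g)
      rw [hcoc, h₁ u fun y hy =>
        (IntermediateField.mem_fixingSubgroup_iff E u).1 hu y (L₁.le_normalClosure hy),
        mul_zero, zero_mul, zero_add]
    obtain ⟨a, ha0, hafix, haχ⟩ := Recip.exists_phi_eq (X := GQ ⧸ U)
      (x₀ := ((1 : GQ) : GQ ⧸ U))
      ⟨U, inferInstance, hUo, fun u hu x => by
        obtain ⟨g, rfl⟩ := QuotientGroup.mk_surjective x
        rw [MulAction.Quotient.smul_coe, smul_eq_mul]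
        refine QuotientGroup.eq.mpr ?_
        simpa [mul_assoc] using Subgroup.Normal.conj_mem ‹U.Normal› _ (inv_mem hu) g⁻¹⟩
      hfl (fun g _ => Local.zmod_two_cases _) (fun g h hg _ => by
        show ℓ (d (g * h)) = ℓ (d g) + ℓ (d h)
        obtain ⟨h1, h2⟩ := hU1 g ((hstab g).mp hg)
        rw [hcoc, h1, h2, one_mul, mul_one, map_add, add_comm])
    have haU : ∀ u ∈ U, u a = a := fun u hu => hafix u ((hstab u).mpr hu)
    have haL : a ∈ L := fun u => haU u.1 u.2
    have hev : MordellWeil.EvenOutside (2 * N) a := by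
      intro p A hp hA hd'
      have hroot : Recip.root a ≠ 0 := fun h => ha0 (by
        rw [← Recip.root_sq a, h, zero_pow two_ne_zero])
      obtain ⟨j, hj⟩ := exists_int_ordAt hA hp hroot fun τ hτ => by
        have hτU : τ ∈ U := hR.unramified p hp hd' A hA τ hτ
        by_contra hne
        have h0 := haχ τ ((hstab τ).mpr hτU)
        rw [hunr p hp hd' A hA τ hτ, map_zero, Recip.phi, Recip.flip_eq_one hne] at h0
        exact zero_ne_one h0
      exact ⟨j, by rw [← Recip.root_sq a, ordAt_pow hA hp hroot, hj]; norm_num⟩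
    obtain ⟨c, hc, b, hb, hab⟩ := hRsq a haL ha0 hev
    refine ⟨⟨c, hc⟩, fun u hu => ?_⟩
    have hb0 : b ≠ 0 := fun h => ha0 (by rw [hab, h, zero_pow two_ne_zero, mul_zero])
    have hc0 : c ≠ 0 := fun h => ha0 (by rw [hab, h, zero_mul])
    have hbu : u b = b := hb ⟨u, hu⟩
    have hcu : u c = c := by
      have := haU u hu
      rw [hab, map_mul, map_pow, hbu] at this
      exact mul_right_cancel₀ (pow_ne_zero 2 hb0) this
    have hbu2 : u (b ^ 2) = b ^ 2 := by rw [map_pow, hbu]
    show ℓ (d u) = _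
    rw [haχ u ((hstab u).mpr hu), hab, Recip.phi_mul_arg hc0 (pow_ne_zero 2 hb0) hcu hbu2,
      Recip.phi_sq b hbu, add_zero]
  choose c hc using hcand
  haveI : Finite (M2 k) := inferInstanceAs (Finite (Fin 2 → Fin 2 → k))
  haveI : Finite (M2 k →+ ZMod 2) := Finite.of_injective _ DFunLike.coe_injective
  refine Finite.of_injective (fun d : classes r N =>
    ((fun ℓ => c d ℓ), fun x : GQ ⧸ U => (d : GQ → M2 k) x.out)) fun d e hde => ?_
  obtain ⟨h1, h2⟩ := Prod.mk.injEq _ _ _ _ ▸ hde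
  have hU : ∀ u ∈ U, (d : GQ → M2 k) u = (e : GQ → M2 k) u := fun u hu => by
    refine sub_eq_zero.mp (Local.eq_zero_of_forall_hom fun ℓ => ?_)
    rw [map_sub, hc d ℓ u hu, hc e ℓ u hu, congrFun h1 ℓ, sub_self]
  refine Subtype.ext (funext fun g => ?_)
  set g₀ := (QuotientGroup.mk g : GQ ⧸ U).out
  have hu : g₀⁻¹ * g ∈ U := QuotientGroup.eq.mp (QuotientGroup.out_eq' _)
  rw [show g = g₀ * (g₀⁻¹ * g) by group, d.2.1.1 g₀ (g₀⁻¹ * g), e.2.1.1 g₀ (g₀⁻¹ * g), hU _ hu,
    show (d : GQ → M2 k) g₀ = (e : GQ → M2 k) g₀ from congrFun h2 _]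

end Fermat.Agent.RT.Two.Select

end
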