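import Fermat.Agent.CFT.TWPrimes.Main
import Fermat.Agent.RT.Two.Select.Space

/-!
# The auxiliary primes

Primes `q ≡ 1 (mod 2 ^ (n + 3))` whose Frobenius elements approximate given elements fixing the
two-power roots of unity.
-/

set_option autoImplicit false
set_option linter.style.haveILetI false

noncomputable section

namespace Fermat.Agent.RT.Two.Select

open Fermat.Agent.Deform Fermat.Agent.Arith

/-- **The auxiliary primes.** -/
theorem exists_primes {m : ℕ} (σ : Fin m → GQ) (hσ : ∀ i, σ i ∈ fixTwo) {V : Subgroup GQ}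
    (hV : IsOpen (V : Set GQ)) (S : Finset ℕ) (n : ℕ) :
    ∃ (q : Fin m → ℕ) (A : Fin m → ValuationSubring QBar) (F : Fin m → GQ),
      Function.Injective q ∧ ∀ i, (q i).Prime ∧ q i ∉ S ∧ 2 ^ (n + 3) ∣ q i - 1 ∧
        (A i).LiesOverPrime (q i) ∧ (A i).IsFrobeniusAt (F i) (q i) ∧ (σ i)⁻¹ * F i ∈ V := by
  classical
  obtain ⟨L₀, hL₀, hsub⟩ :=
    (krullTopology_mem_nhds_one_iff ℚ QBar (V : Set GQ)).mp (hV.mem_nhds (one_mem V))
  haveI : NeZero (2 ^ (n + 3)) := ⟨pow_ne_zero _ two_ne_zero⟩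
  obtain ⟨ζ, hζ⟩ := HasEnoughRootsOfUnity.exists_primitiveRoot QBar (2 ^ (n + 3))
  haveI := hL₀
  haveI : FiniteDimensional ℚ (IntermediateField.adjoin ℚ {ζ}) :=
    IntermediateField.adjoin.finiteDimensional (Algebra.IsIntegral.isIntegral ζ)
  let Lbig : IntermediateField ℚ QBar := L₀ ⊔ IntermediateField.adjoin ℚ {ζ}
  haveI : FiniteDimensional ℚ Lbig := IntermediateField.finiteDimensional_sup _ _
  let L' : IntermediateField ℚ QBar := IntermediateField.normalClosure ℚ Lbig QBar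
  haveI : Normal ℚ L' := normalClosure.normal ℚ Lbig QBar
  haveI : IsGalois ℚ L' := ⟨⟩
  haveI : FiniteDimensional ℚ L' := normalClosure.is_finiteDimensional ℚ Lbig QBar
  have hle₀ : L₀ ≤ L' := le_trans le_sup_left Lbig.le_normalClosure
  have hζL : ζ ∈ L' := Lbig.le_normalClosure
    ((le_sup_right : IntermediateField.adjoin ℚ {ζ} ≤ Lbig)
      (IntermediateField.mem_adjoin_simple_self ℚ ζ))
  let P : Fin m → ℕ → Prop := fun i q => q.Prime ∧ q ∉ S ∧ 2 ^ (n + 3) ∣ q - 1 ∧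
    ∃ (A : ValuationSubring QBar) (F : GQ),
      A.LiesOverPrime q ∧ A.IsFrobeniusAt F q ∧ (σ i)⁻¹ * F ∈ V
  have hcand : ∀ (i : Fin m) (T : Finset ℕ), ∃ q, q ∉ T ∧ P i q := by
    intro i T
    obtain ⟨q, hq, hqT, A, hA, F, hF, he⟩ :=
      Chebotarev.exists_frobenius_restrict_eq L' (σ i) (T ∪ S ∪ {2})
    simp only [Finset.mem_union, Finset.mem_singleton, not_or] at hqT
    have hfix : ∀ x ∈ L', ((σ i)⁻¹ * F) x = x :=
      (Chebotarev.restrictNormalHom_eq_one_iff L').mp (by rw [map_mul, map_inv, he, inv_mul_cancel])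
    refine ⟨q, hqT.1.1, hq, hqT.1.2, ?_, A, F, hA, hF,
      hsub ((IntermediateField.mem_fixingSubgroup_iff _ _).mpr fun x hx => hfix x (hle₀ hx))⟩
    have h1 : F ζ = ζ := by
      have := congrArg (σ i) (hfix ζ hζL)
      rwa [← AlgEquiv.mul_apply, mul_inv_cancel_left, hσ i (n + 3) ζ hζ.pow_eq_one] at this
    have h2 := frobenius_root hA hq hF hζ.pow_eq_one fun hd =>
      hqT.2 ((Nat.prime_dvd_prime_iff_eq hq Nat.prime_two).mp (hq.dvd_of_dvd_pow hd))
    rw [h1] at h2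
    exact (hζ.pow_eq_one_iff_dvd _).mp (mul_right_cancel₀ (hζ.ne_zero (NeZero.ne _))
      (by rw [← pow_succ, Nat.sub_add_cancel hq.one_lt.le, one_mul, ← h2]))
  obtain ⟨q, hq, hinj⟩ := CFT.TWPrimes.exists_injOn_choice hcand Finset.univ ∅
  replace hq := fun i => (hq i (Finset.mem_univ i)).1
  choose hp hS hdvd A F hA hF hV' using hq
  exact ⟨q, A, F, fun i j e => hinj (Finset.mem_univ i) (Finset.mem_univ j) e,
    fun i => ⟨hp i, hS i, hdvd i, hA i, hF i, hV' i⟩⟩

end Fermat.Agent.RT.Two.Select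

end
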