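import Fermat.Agent.RT.Two.Select.Finite

/-!
# The detecting elements

Finitely many elements fixing the two-power roots of unity whose trace derivatives form a basis of
the functionals on the classes, and at which two given lifts have unequal eigenvalues.
-/

set_option autoImplicit false
set_option linter.style.haveILetI false

noncomputable section

namespace Fermat.Agent.RT.Two.Select

open Fermat.Agent.Deform Fermat.Agent.Arith Fermat.Agent.CFT.Tangent

set_option synthInstance.maxSize 2000 in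
set_option synthInstance.maxHeartbeats 400000 in
theorem exists_nondegenerate : ∀ s t t' : M2 (ZMod 2), s 0 0 * s 1 1 + s 0 1 * s 1 0 = 1 →
    t ^ 2 = 1 → t' ^ 2 = 1 → t ≠ 1 → t' ≠ 1 → t ≠ t' →
    (s * (t - 1)).trace = 1 ∨ (s * (t' - 1)).trace = 1 ∨
      (s * ((t - 1) * (t' - 1))).trace = 1 := by decide

set_option synthInstance.maxSize 2000 in
set_option synthInstance.maxHeartbeats 400000 in
theorem conj_ne : ∀ s t : M2 (ZMod 2), s ^ 3 = 1 → s ≠ 1 → t ^ 2 = 1 → t ≠ 1 →
    s * t * (s * s) ≠ t ∧ (s * t * (s * s)) ^ 2 = 1 ∧ s * t * (s * s) ≠ 1 := by decide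

theorem one_add_pow {R : Type*} [Ring R] {x : R} (hx : x * x = 0) (m : ℕ) :
    (1 + x) ^ m = 1 + m • x := by
  induction m with
  | zero => simp
  | succ m ih =>
    rw [pow_succ, ih, succ_nsmul, mul_add, mul_one, add_mul, one_mul, smul_mul_assoc, hx,
      smul_zero, add_zero, add_assoc]

/-- Avoiding finitely many values with an affine function. -/
theorem exists_notMem_affine {O : Type*} [CommRing O] [IsDomain O] [CharZero O] {a : O}
    (ha : a ≠ 0) (t : O) (B : Finset O) : ∃ M : Finset ℕ, M.card ≤ B.card ∧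
      ∀ m : ℕ, m ∉ M → t + (m : O) * a ∉ B := by
  classical
  let M : Finset ℕ := B.biUnion fun b =>
    if h : ∃ m : ℕ, t + (m : O) * a = b then {h.choose} else ∅
  refine ⟨M, ?_, fun m hm hB => hm (Finset.mem_biUnion.mpr ⟨_, hB, ?_⟩)⟩
  · refine (Finset.card_biUnion_le).trans ((Finset.sum_le_card_nsmul _ _ 1 fun b _ => ?_).trans
      (by simp))
    split_ifs <;> simp
  · have h : ∃ m' : ℕ, t + (m' : O) * a = t + (m : O) * a := ⟨m, rfl⟩
    rw [dif_pos h, Finset.mem_singleton]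
    have := add_left_cancel h.choose_spec
    exact (Nat.cast_injective (mul_right_cancel₀ ha this)).symm

/-- Two bilinear functions avoid finite sets simultaneously on a grid. -/
theorem exists_grid {O : Type*} [CommRing O] [IsDomain O] [CharZero O] (e : ℕ) (he : 0 < e)
    (t a b c : Bool → O) (h : ∀ j, a j ≠ 0 ∨ b j ≠ 0 ∨ c j ≠ 0) (B : Bool → Finset O) :
    ∃ m n : ℕ, ∀ j, t j + (e * m : ℕ) * a j + (e * n : ℕ) * b j +
      ((e * m : ℕ) * (e * n : ℕ) : O) * c j ∉ B j := by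
  classical
  have heO : (e : O) ≠ 0 := Nat.cast_ne_zero.mpr he.ne'
  have hn : ∀ j, ∃ M : Finset ℕ, ∀ n : ℕ, n ∉ M →
      a j + (e * n : ℕ) * c j ≠ 0 ∨ (a j + (e * n : ℕ) * c j = 0 ∧ t j + (e * n : ℕ) * b j ∉ B j) := by
    intro j
    by_cases hac : a j ≠ 0 ∨ c j ≠ 0
    · by_cases hc : c j = 0
      · refine ⟨∅, fun n _ => Or.inl ?_⟩
        rw [hc, mul_zero, add_zero]
        exact hac.resolve_right fun h => h hc
      · obtain ⟨M, -, hM⟩ := exists_notMem_affine (mul_ne_zero heO hc) (a j) {0}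
        refine ⟨M, fun n hn => Or.inl fun h0 => hM n hn ?_⟩
        rw [Finset.mem_singleton, ← h0]; push_cast; ring
    · push Not at hac
      obtain ⟨M, -, hM⟩ := exists_notMem_affine
        (mul_ne_zero heO (((h j).resolve_left fun h => h hac.1).resolve_right fun h => h hac.2))
        (t j) (B j)
      refine ⟨M, fun n hn => Or.inr ⟨by rw [hac.1, hac.2, mul_zero, add_zero], fun hB => hM n hn ?_⟩⟩
      convert hB using 1
      push_cast; ring
  choose Mn hMn using hn
  obtain ⟨n, hn⟩ := (Mn true ∪ Mn false).exists_notMem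
  rw [Finset.mem_union, not_or] at hn
  have hm : ∀ j, ∃ M : Finset ℕ, ∀ m : ℕ, m ∉ M →
      t j + (e * m : ℕ) * a j + (e * n : ℕ) * b j + ((e * m : ℕ) * (e * n : ℕ) : O) * c j ∉ B j := by
    intro j
    rcases hMn j n (by cases j; exacts [hn.2, hn.1]) with hne | ⟨h0, hB⟩
    · obtain ⟨M, -, hM⟩ := exists_notMem_affine (mul_ne_zero heO hne)
        (t j + (e * n : ℕ) * b j) (B j)
      refine ⟨M, fun m hm hB => hM m hm ?_⟩
      convert hB using 1
      push_cast; ring
    · refine ⟨∅, fun m _ hB' => hB ?_⟩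
      convert hB' using 1
      push_cast at h0 ⊢
      linear_combination (-(e : O) * m) * h0
  choose Mm hMm using hm
  obtain ⟨m, hm⟩ := (Mm true ∪ Mm false).exists_notMem
  rw [Finset.mem_union, not_or] at hm
  exact ⟨m, n, fun j => hMm j m (by cases j; exacts [hm.2, hm.1])⟩

variable {k : Type} [Field k] [Algebra (ZMod 2) k] {r₀ : GQ →* M2 (ZMod 2)} {N : ℕ}

theorem exists_pow_mem_open {V : Subgroup GQ} (hV : IsOpen (V : Set GQ)) (τ : GQ) :
    ∃ e, 0 < e ∧ τ ^ e ∈ V := by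
  haveI : IsGalois ℚ QBar := qBar_isGalois
  haveI : Finite (GQ ⧸ V) := Subgroup.quotient_finite_of_isOpen V hV
  obtain ⟨e, he, -, h⟩ := Subgroup.exists_pow_mem_of_index_ne_zero
    (H := V) Subgroup.index_ne_zero_of_finite τ
  exact ⟨e, he, h⟩

/-- **Avoidance.** Near any element, within its coset of the elements fixing the two-power roots of
unity, the two lifts have unequal eigenvalues somewhere. -/
theorem exists_near (hR : IsResidualTwo r₀ N) {O : Type} [CommRing O] [IsDomain O] [CharZero O]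
    (π : O →+* k) (ρ : Bool → GQ →* M2 O)
    (hρ : ∀ j σ, (ρ j σ).map π = Local.extRep k r₀ σ)
    (huni : ∀ j, ∀ v : ℕ, v.Prime → v ∣ N → ∀ A : ValuationSubring QBar, A.LiesOverPrime v →
      ∀ τ ∈ A.inertiaSubgroupIn ℚ, (ρ j τ).trace = 2 ∧ (ρ j τ).det = 1)
    (σ : GQ) {V : Subgroup GQ} (hV : IsOpen (V : Set GQ)) :
    ∃ u ∈ V, u ∈ fixTwo ∧ ∀ j, (ρ j (σ * u)).trace ^ 2 - 4 * (ρ j (σ * u)).det ≠ 0 := by
  classical
  obtain ⟨q, hq, hqN⟩ := Nat.exists_prime_and_dvd hR.one_lt.ne'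
  have hq2 : q ≠ 2 := fun e => by
    rw [e] at hqN
    exact (Nat.not_even_iff_odd.mpr hR.odd) (even_iff_two_dvd.mpr hqN)
  obtain ⟨A, hA⟩ := exists_liesOverPrime hq
  obtain ⟨τ, hτ, hτ1⟩ := hR.ramified q hq hqN A hA
  have hτ2 := hR.unipotent q hq hqN A hA τ hτ
  have hτF : τ ∈ fixTwo := inertia_le_fixTwo hq hq2 hA hτ
  obtain ⟨a, ha⟩ := hR.exists_trace_one
  obtain ⟨ha3, ha1⟩ := order_three (r₀ a) (by simpa [Matrix.trace_fin_two] using ha)
    (hR.det_fin_two' a)
  set τ' := a * τ * a⁻¹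
  have hτ' : τ' ∈ fixTwo := fixTwo_conj hτF a
  have hainv : r₀ a⁻¹ = r₀ a * r₀ a := by
    rw [← mul_one (r₀ a⁻¹), ← show r₀ a * (r₀ a * r₀ a) = 1 by rw [← pow_two, ← pow_succ', ha3],
      ← mul_assoc, CFT.Tangent.map_inv_mul, one_mul]
  obtain ⟨hne, hτ'2, hτ'1⟩ := conj_ne _ _ ha3 ha1 hτ2 hτ1
  have hrτ' : r₀ τ' = r₀ a * r₀ τ * (r₀ a * r₀ a) := by simp only [τ', map_mul, hainv]
  rw [← hrτ'] at hne hτ'2 hτ'1
  -- the nilpotent parts
  have hnil : ∀ j, ((ρ j τ - 1) * (ρ j τ - 1) = 0) ∧ ((ρ j τ' - 1) * (ρ j τ' - 1) = 0) ∧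
      (ρ j τ' - 1).trace = 0 := by
    intro j
    obtain ⟨htr, hdet⟩ := huni j q hq hqN A hA τ hτ
    have hsq : ∀ X : M2 O, X.trace = 2 → X.det = 1 → (X - 1) * (X - 1) = 0 := by
      intro X h1 h2
      rw [Matrix.trace_fin_two] at h1
      rw [Matrix.det_fin_two] at h2
      ext i l
      fin_cases i <;> fin_cases l <;> simp [Matrix.mul_apply, Fin.sum_univ_two]
      · linear_combination (X 0 0) * h1 - h2
      · linear_combination (X 0 1) * h1
      · linear_combination (X 1 0) * h1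
      · linear_combination (X 1 1) * h1 - h2
    have hunit : ρ j a * ρ j a⁻¹ = 1 := by rw [← map_mul, mul_inv_cancel, map_one]
    have hinv : ρ j a⁻¹ * ρ j a = 1 := by rw [← map_mul, inv_mul_cancel, map_one]
    have htr' : (ρ j τ').trace = 2 := by
      simp only [τ', map_mul]; rw [Matrix.trace_mul_cycle, hinv, one_mul, htr]
    have hdet' : (ρ j τ').det = 1 := by
      simp only [τ', map_mul, Matrix.det_mul]
      rw [hdet, mul_one, ← Matrix.det_mul, hunit, Matrix.det_one]
    exact ⟨hsq _ htr hdet, hsq _ htr' hdet', by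
      rw [Matrix.trace_sub, htr', Matrix.trace_one, Fintype.card_fin]; norm_num⟩
  obtain ⟨e₁, he₁, hV₁⟩ := exists_pow_mem_open hV τ
  obtain ⟨e₂, he₂, hV₂⟩ := exists_pow_mem_open hV τ'
  set e := e₁ * e₂
  have hab : ∀ j, (ρ j σ * (ρ j τ - 1)).trace ≠ 0 ∨ (ρ j σ * (ρ j τ' - 1)).trace ≠ 0 ∨
      (ρ j σ * ((ρ j τ - 1) * (ρ j τ' - 1))).trace ≠ 0 := by
    intro j
    have hmap : ∀ (s : GQ) (X : M2 O) (m : M2 (ZMod 2)), X.map π = m.map (algebraMap (ZMod 2) k) →
        ((r₀ s * m).trace = 1) → (ρ j s * X).trace ≠ 0 := by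
      intro s X m hX h1 h0
      have h2 : π ((ρ j s * X).trace) = algebraMap (ZMod 2) k (r₀ s * m).trace := by
        rw [AddMonoidHom.map_trace π, AddMonoidHom.map_trace (algebraMap (ZMod 2) k),
          Matrix.map_mul, Matrix.map_mul, hρ, hX]
        rfl
      rw [h0, h1, map_zero, map_one] at h2
      exact zero_ne_one h2
    have hsub : ∀ s : GQ, (ρ j s - 1).map π = (r₀ s - 1).map (algebraMap (ZMod 2) k) := fun s => by
      rw [Matrix.map_sub _ (map_sub π), Matrix.map_sub _ (map_sub (algebraMap (ZMod 2) k)), hρ,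
        Matrix.map_one _ (map_zero π) (map_one π), Matrix.map_one _ (map_zero _) (map_one _)]
      rfl
    rcases exists_nondegenerate (r₀ σ) (r₀ τ) (r₀ τ') (hR.det_fin_two' σ) hτ2 hτ'2 hτ1 hτ'1
      hne.symm with h | h | h
    · exact Or.inl (hmap _ _ _ (hsub τ) h)
    · exact Or.inr (Or.inl (hmap _ _ _ (hsub τ') h))
    · exact Or.inr (Or.inr (hmap _ _ _ (by rw [Matrix.map_mul, Matrix.map_mul, hsub, hsub]) h))
  let B : Bool → Finset O := fun j =>
    ((Polynomial.X ^ 2 - Polynomial.C (4 * (ρ j σ).det) : Polynomial O).roots).toFinset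
  obtain ⟨m, n, hmn⟩ := exists_grid e (Nat.mul_pos he₁ he₂) (fun j => (ρ j σ).trace) _ _ _ hab B
  refine ⟨τ ^ (e * m) * τ' ^ (e * n), mul_mem ?_ ?_, mul_mem (pow_mem hτF _) (pow_mem hτ' _),
    fun j h0 => hmn j ?_⟩
  · rw [mul_assoc, pow_mul]; exact pow_mem hV₁ _
  · rw [show e * n = e₂ * (e₁ * n) by simp only [e]; ring, pow_mul]; exact pow_mem hV₂ _
  obtain ⟨hN, hN', -⟩ := hnil j
  have hp : ∀ (X : M2 O) (l : ℕ), (X - 1) * (X - 1) = 0 → X ^ l = 1 + l • (X - 1) := fun X l h => by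
    rw [← one_add_pow h l, add_sub_cancel]
  have hexp : (ρ j (σ * (τ ^ (e * m) * τ' ^ (e * n)))).trace = (ρ j σ).trace +
      (e * m : ℕ) * (ρ j σ * (ρ j τ - 1)).trace + (e * n : ℕ) * (ρ j σ * (ρ j τ' - 1)).trace +
      ((e * m : ℕ) * (e * n : ℕ) : O) * (ρ j σ * ((ρ j τ - 1) * (ρ j τ' - 1))).trace := by
    rw [map_mul, map_mul, map_pow, map_pow, hp _ _ hN, hp _ _ hN']
    simp only [mul_add, add_mul, mul_one, one_mul, smul_mul_assoc, mul_smul_comm,
      Matrix.trace_add, Matrix.trace_smul]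
    simp only [nsmul_eq_mul]
    push_cast
    ring
  have hdet : (ρ j (σ * (τ ^ (e * m) * τ' ^ (e * n)))).det = (ρ j σ).det := by
    obtain ⟨-, hdτ⟩ := huni j q hq hqN A hA τ hτ
    have hunit : (ρ j a).det * (ρ j a⁻¹).det = 1 := by
      rw [← Matrix.det_mul, ← map_mul, mul_inv_cancel, map_one, Matrix.det_one]
    have hdτ' : (ρ j τ').det = 1 := by
      simp only [τ', map_mul, Matrix.det_mul, hdτ, mul_one, hunit]
    simp only [map_mul, map_pow, Matrix.det_mul, Matrix.det_pow, hdτ, hdτ', one_pow, mul_one]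
  show _ ∈ B j
  simp only [B, Multiset.mem_toFinset, Polynomial.mem_roots',
    (Polynomial.monic_X_pow_sub_C _ two_ne_zero).ne_zero, ne_eq, not_false_eq_true, true_and,
    Polynomial.IsRoot, Polynomial.eval_sub, Polynomial.eval_pow, Polynomial.eval_X,
    Polynomial.eval_C]
  rw [hexp, hdet] at h0
  exact h0

/-- **The detecting elements.** -/
theorem exists_sigma [Finite k] (hR : IsResidualTwo r₀ N) {O : Type} [CommRing O] [IsDomain O]
    [CharZero O] (π : O →+* k) (ρ : Bool → GQ →* M2 O)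
    (hρ : ∀ j σ, (ρ j σ).map π = Local.extRep k r₀ σ)
    (huni : ∀ j, ∀ v : ℕ, v.Prime → v ∣ N → ∀ A : ValuationSubring QBar, A.LiesOverPrime v →
      ∀ τ ∈ A.inertiaSubgroupIn ℚ, (ρ j τ).trace = 2 ∧ (ρ j τ).det = 1) :
    ∃ (m : ℕ) (σ : Fin m → GQ),
      (∀ i, σ i ∈ fixTwo ∧ (∀ c : ZMod 2, r₀ (σ i) ≠ c • 1) ∧
        ∀ j, (ρ j (σ i)).trace ^ 2 - 4 * (ρ j (σ i)).det ≠ 0) ∧
      (∀ d ∈ classes (Local.extRep k r₀) N, (∀ i, phi (Local.extRep k r₀) (σ i) d = 0) →
        ∃ X : M2 k, d = cobdLin (Local.extRep k r₀) X) ∧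
      ∀ i, ∃ d ∈ classes (Local.extRep k r₀) N,
        ∀ j, phi (Local.extRep k r₀) (σ j) d = if i = j then 1 else 0 := by
  classical
  set r := Local.extRep k r₀ with hr
  set C := classes r N with hC
  haveI : Finite C := finite_classes hR
  haveI : Module.Finite k C := Module.Finite.of_finite
  let Good : GQ → Prop := fun σ => σ ∈ fixTwo ∧ (∀ c : ZMod 2, r₀ σ ≠ c • 1) ∧
    ∀ j, (ρ j σ).trace ^ 2 - 4 * (ρ j σ).det ≠ 0
  let f : {σ // Good σ} → Module.Dual k C := fun σ => (phi r σ.1).comp C.subtype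
  obtain ⟨κ, a, ha, hspan, hli⟩ := exists_linearIndependent' k f
  haveI : Finite (Module.Dual k C) := Module.finite_of_finite k
  haveI : Finite κ := Finite.of_injective _ (LinearIndependent.injective hli)
  haveI : Fintype κ := Fintype.ofFinite κ
  -- the good functionals detect
  have hdet : ∀ d : C, (∀ σ, f σ d = 0) → ∃ X : M2 k, (d : GQ → M2 k) = cobdLin r X := by
    intro d hd
    refine hR.exists_cobd d.2 fun σ hσ => ?_
    by_cases hone : r₀ σ = 1
    · show ((d : GQ → M2 k) σ * r σ).trace = 0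
      rw [hr, Local.extRep_eq_one hone, mul_one]
      exact d.2.2.1 σ
    -- a neighbourhood on which `r` and `d` are constant
    obtain ⟨L₁, hL₁, h₁⟩ := d.2.1.2.1
    obtain ⟨L₂, hL₂, h₂⟩ := hR.ss.finite
    haveI := hL₁
    haveI := hL₂
    haveI := IntermediateField.finiteDimensional_sup L₁ L₂
    obtain ⟨u, huV, huF, hu⟩ := exists_near hR π ρ hρ huni σ
      (IntermediateField.fixingSubgroup_isOpen (L₁ ⊔ L₂))
    rw [IntermediateField.mem_fixingSubgroup_iff] at huV
    have hu1 : r₀ u = 1 := h₂ u fun x hx => huV x ((le_sup_right : L₂ ≤ L₁ ⊔ L₂) hx)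
    have hdu : (d : GQ → M2 k) (σ * u) = (d : GQ → M2 k) σ := by
      rw [d.2.1.1, h₁ u fun x hx => huV x ((le_sup_left : L₁ ≤ L₁ ⊔ L₂) hx), mul_zero, zero_mul,
        zero_add]
    have hru : r (σ * u) = r σ := by
      rw [map_mul, show r u = 1 from Local.extRep_eq_one hu1, mul_one]
    have hgood : Good (σ * u) := by
      refine ⟨mul_mem hσ huF, fun c hc => ?_, hu⟩
      rw [map_mul, hu1, mul_one] at hc
      have h1 := hR.det_eq_one σ
      rcases Local.zmod_two_cases c with rfl | rfl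
      · rw [hc, zero_smul, Matrix.det_zero] at h1
        exact zero_ne_one h1
      · exact hone (by rw [hc, one_smul])
    have := hd ⟨σ * u, hgood⟩
    simp only [f, LinearMap.comp_apply, Submodule.subtype_apply, phi_apply, hdu, hru] at this
    exact this
  set e := Fintype.equivFin κ
  refine ⟨Fintype.card κ, fun i => (a (e.symm i)).1, fun i => (a (e.symm i)).2, fun d hd h => ?_,
    fun i => ?_⟩
  · refine hdet ⟨d, hd⟩ fun σ => ?_
    have hmem : f σ ∈ Submodule.span k (Set.range (f ∘ a)) := hspan ▸ Submodule.subset_span ⟨σ, rfl⟩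
    obtain ⟨c, hc⟩ := (Submodule.mem_span_range_iff_exists_fun k).mp hmem
    rw [← hc, LinearMap.sum_apply]
    refine Finset.sum_eq_zero fun x _ => ?_
    have h' := h (e x)
    simp only [Equiv.symm_apply_apply] at h'
    rw [LinearMap.smul_apply]
    show c x • phi r (a x).1 d = 0
    rw [h', smul_zero]
  · let ev : C →ₗ[k] (κ → k) := LinearMap.pi fun x => f (a x)
    have hsurj : Function.Surjective ev := by
      rw [← LinearMap.dualMap_injective_iff]
      intro φ ψ hφψ
      have key : ∀ φ : Module.Dual k (κ → k), ev.dualMap φ = ∑ x, φ (Pi.single x 1) • f (a x) := by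
        intro φ
        refine LinearMap.ext fun d => ?_
        rw [LinearMap.dualMap_apply, LinearMap.sum_apply]
        conv_lhs => rw [pi_eq_sum_univ' (ev d), map_sum]
        refine Finset.sum_congr rfl fun x _ => ?_
        rw [map_smul, LinearMap.smul_apply, smul_eq_mul, smul_eq_mul, mul_comm]
        rfl
      rw [key, key, ← sub_eq_zero, ← Finset.sum_sub_distrib] at hφψ
      refine LinearMap.pi_ext' fun x => LinearMap.ext_ring ?_
      exact sub_eq_zero.mp (Fintype.linearIndependent_iff.mp hli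
        (fun x => φ (Pi.single x 1) - ψ (Pi.single x 1))
        ((Finset.sum_congr rfl fun x _ => sub_smul _ _ _).trans hφψ) x)
    obtain ⟨d, hd⟩ := hsurj (Pi.single (e.symm i) 1)
    refine ⟨(d : GQ → M2 k), d.2, fun j => ?_⟩
    have := congrFun hd (e.symm j)
    rw [Pi.single_apply] at this
    simp only [EmbeddingLike.apply_eq_iff_eq, eq_comm (a := j)] at this
    exact this

end Fermat.Agent.RT.Two.Select

end
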