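import Fermat.Agent.RT.Two.Select.Tangent
import Fermat.Agent.RT.Two.Recip.Main
import Fermat.Agent.RT.Two.Core.Main

/-!
# Generation near a point when the traces at the auxiliary primes detect

Modulo the roots and one system of relations at the auxiliary primes, the auxiliary level is
generated by the scalars.
-/

set_option autoImplicit false
set_option linter.style.haveILetI false
set_option linter.unusedSectionVars false

noncomputable section

namespace Fermat.Agent.RT.Two.Select

open IsLocalRing Fermat.Agent.Deform Fermat.Agent.Arith Fermat.Agent.CFT.Tangent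
open scoped Pointwise

variable {O : Type} [CommRing O] [IsDomain O] [IsDiscreteValuationRing O]
  [IsAdicComplete (maximalIdeal O) O] [Finite (ResidueField O)] [CharZero O]
  [Algebra (ZMod 2) (ResidueField O)]
variable {N m : ℕ} {T : TwoSetup O N m} {μ : ℕ} {L : TwoLevel T μ}

theorem q_ne_two (T : TwoSetup O N m) (i : Fin m) : T.q i ≠ 2 := fun e => by
  have h := T.q_congr i
  rw [e] at h
  have h1 := Nat.le_of_dvd (by norm_num) h
  have h2 : 2 ^ 3 ≤ 2 ^ (T.n + 3) := Nat.pow_le_pow_right (by norm_num) (by omega)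
  omega

theorem q_not_dvd_two_mul (T : TwoSetup O N m) (i : Fin m) : ¬ T.q i ∣ 2 * N := fun hd => by
  rcases (Nat.Prime.dvd_mul (T.q_prime i)).1 hd with h | h
  · exact q_ne_two T i ((Nat.prime_dvd_prime_iff_eq (T.q_prime i) Nat.prime_two).1 h)
  · exact T.q_not_dvd i h

theorem res_eq_one_at_q (T : TwoSetup O N m) (i : Fin m) {g : GQ}
    (hg : g ∈ (T.A i).inertiaSubgroupIn ℚ) : res T g = 1 :=
  Local.extRep_eq_one (T.r₂_unramified (T.q i) (T.q_prime i) (q_not_dvd_two_mul T i) (T.A i)
    (T.liesOver i) g hg)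

theorem res_inv_eq_one_at_q (T : TwoSetup O N m) (i : Fin m) {g : GQ}
    (hg : g ∈ (T.A i).inertiaSubgroupIn ℚ) : res T g⁻¹ = 1 :=
  res_eq_one_at_q T i (inv_mem hg)

/-- A choice of tame pairs at the places of the auxiliary level. -/
theorem exists_pairChoice_at (T : TwoSetup O N m) :
    ∃ pr : ℕ → GQ × GQ, Recip.IsPairChoice pr ∧
      ∀ i, Recip.IsTamePair (T.A i) (T.q i) (pr (T.q i)).1 (pr (T.q i)).2 := by
  classical
  have h : ∀ p : ℕ, ∃ st : GQ × GQ, p.Prime → p ≠ 2 →
      ∃ A : ValuationSubring QBar, A.LiesOverPrime p ∧ Recip.IsTamePair A p st.1 st.2 ∧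
        ∀ i, T.q i = p → A = T.A i := by
    intro p
    by_cases hp : p.Prime ∧ p ≠ 2
    · haveI := Fact.mk hp.1
      by_cases hi : ∃ i, T.q i = p
      · obtain ⟨i, hi⟩ := hi
        have hA : (T.A i).LiesOverPrime p := hi ▸ T.liesOver i
        obtain ⟨s, t, hst⟩ := Recip.exists_tamePair p hp.2 hA
        exact ⟨(s, t), fun _ _ => ⟨_, hA, hst, fun j hj =>
          by rw [T.q_injective (hj.trans hi.symm)]⟩⟩
      · obtain ⟨A, hA⟩ := Arith.exists_liesOverPrime hp.1
        obtain ⟨s, t, hst⟩ := Recip.exists_tamePair p hp.2 hA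
        exact ⟨(s, t), fun _ _ => ⟨A, hA, hst, fun j hj => absurd ⟨j, hj⟩ hi⟩⟩
    · exact ⟨(1, 1), fun h1 h2 => absurd ⟨h1, h2⟩ hp⟩
  choose f hf using h
  refine ⟨f, fun p hp hp2 => ?_, fun i => ?_⟩
  · obtain ⟨A, hA, hst, -⟩ := hf p hp hp2
    exact ⟨A, hA, hst⟩
  · obtain ⟨A, -, hst, hA⟩ := hf (T.q i) (T.q_prime i) (q_ne_two T i)
    rwa [← hA i rfl]

namespace IsTangent

variable {δ : L.B → ResidueField O} (h : IsTangent L δ)
include h

theorem cls_add_at_q (i : Fin m) {g : GQ} (hg : g ∈ (T.A i).inertiaSubgroupIn ℚ) (u : GQ) :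
    cls L δ (g * u) = cls L δ g + cls L δ u := by
  rw [h.cls_isAdCocycle g u, res_eq_one_at_q T i hg, res_inv_eq_one_at_q T i hg, one_mul, mul_one,
    add_comm]

/-- On inertia at an auxiliary prime the class is determined by its value at `τ`. -/
theorem cls_at_q (i : Fin m) {g : GQ} (hg : g ∈ (T.A i).inertiaSubgroupIn ℚ) :
    (cls L δ g = 0 ∨ cls L δ g = cls L δ (L.τ i)) ∧
      ((∀ z : QBar, z ^ 2 = (T.q i : QBar) → g z ≠ z) → cls L δ g = cls L δ (L.τ i)) := by
  haveI := charP_res (O := O)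
  obtain ⟨z, hz⟩ := IsAlgClosed.exists_pow_nat_eq (T.q i : QBar) two_pos
  have hz0 : z ≠ 0 := fun e => (T.q_prime i).ne_zero (by
    rw [e, zero_pow two_ne_zero] at hz; exact_mod_cast hz.symm)
  have hmove : L.τ i z ≠ z := fun e => hz0 (by
    rw [L.τ_sqrt i z hz] at e
    exact neg_eq_self.1 e)
  obtain ⟨E, hE, hE'⟩ := h.cls_isFiniteLevel
  have hkey := hom_inertia_two (T.q_prime i) (q_ne_two T i) (T.liesOver i)
    (X := M2 (ResidueField O)) (c := cls L δ)
    (fun x => Matrix.ext fun a b => CharTwo.add_self_eq_zero _)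
    (fun a ha b _ => h.cls_add_at_q i ha b)
    ⟨E, hE, fun a _ hfix => hE' a hfix⟩ (L.τ_mem i) hz hmove hg
  refine ⟨?_, fun hmv => hkey.2 (hmv z hz)⟩
  by_cases hfix : g z = z
  · exact Or.inl (hkey.1 hfix)
  · exact Or.inr (hkey.2 hfix)

theorem cls_pow_at_q (i : Fin m) {t : GQ} (ht : t ∈ (T.A i).inertiaSubgroupIn ℚ) (l : ℕ) :
    cls L δ (t ^ l) = (l : ResidueField O) • cls L δ t := by
  induction l with
  | zero => rw [pow_zero, h.cls_one, Nat.cast_zero, zero_smul]
  | succ l ih =>
    rw [pow_succ, h.cls_add_at_q i (pow_mem ht l), ih, Nat.cast_succ, add_smul, one_smul]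

omit h in
theorem res_frobenius_eq (i : Fin m) {s : GQ} (hs : (T.A i).IsFrobeniusAt s (T.q i)) :
    res T s = res T (T.F i) := by
  have h1 := res_eq_one_at_q T i (inv_mul_mem_inertia (T.isFrobenius i) hs)
  rw [map_mul] at h1
  calc res T s = res T s * (res T s⁻¹ * res T (T.F i)) := by rw [h1, mul_one]
    _ = res T (T.F i) := by rw [← mul_assoc, res_mul_inv, one_mul]

theorem cls_commute_frobenius (i : Fin m) :
    res T (T.F i) * cls L δ (L.τ i) = cls L δ (L.τ i) * res T (T.F i) := by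
  haveI := charP_res (O := O)
  obtain ⟨pr, -, hat⟩ := exists_pairChoice_at T
  have hst := hat i
  set s := (pr (T.q i)).1
  set t := (pr (T.q i)).2
  have hct : cls L δ t = cls L δ (L.τ i) := (h.cls_at_q i hst.inertia).2 hst.moves
  have htq : t ^ T.q i ∈ (T.A i).inertiaSubgroupIn ℚ := pow_mem hst.inertia _
  have e := congrArg (cls L δ) hst.rel
  rw [h.cls_isAdCocycle s t, h.cls_isAdCocycle (t ^ T.q i) s, res_eq_one_at_q T i htq,
    res_inv_eq_one_at_q T i htq, one_mul, mul_one, h.cls_pow_at_q i hst.inertia,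
    Recip.natCast_odd ((T.q_prime i).odd_of_ne_two (q_ne_two T i)), one_smul, add_comm,
    add_left_cancel_iff, hct] at e
  rw [← res_frobenius_eq i hst.frob]
  calc res T s * cls L δ (L.τ i) = res T s * cls L δ (L.τ i) * (res T s⁻¹ * res T s) := by
        rw [res_inv_mul, mul_one]
    _ = cls L δ (L.τ i) * res T s := by rw [← mul_assoc, e]

/-- In the frame. -/
theorem map_frame (i : Fin m) {X : M2 L.B} (hX : X.map L.aug = 1) :
    ((↑(L.P i)⁻¹ : M2 L.B) * X * L.P i).map δ =
      (↑(L.P i)⁻¹ : M2 L.B).map L.aug * X.map δ * (L.P i : M2 L.B).map L.aug := by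
  have h0 := h.map_mat_mul (↑(L.P i)⁻¹ : M2 L.B) (L.P i)
  rw [Units.inv_mul, h.map_mat_one] at h0
  rw [h.map_mat_mul, h.map_mat_mul, Matrix.map_mul, hX, mul_one, mul_one, add_mul]
  rw [← add_assoc, add_right_comm, ← h0, zero_add]

theorem data_at_q (i : Fin m) : ∃ a b : ResidueField O,
    cls L δ (L.τ i) = a • 1 + b • res T (T.F i) ∧
      δ (L.x i) = b * (res T (T.F i)).trace ∧ δ (L.y i) = a + b * L.aug (L.X i) := by
  haveI := charP_res (O := O)
  have hns : ∀ c : ResidueField O, res T (T.F i) ≠ c • 1 := by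
    intro c hc
    refine T.F_nonscalar i (T.r₂ (T.F i) 0 0) ?_
    ext a b
    refine (algebraMap (ZMod 2) (ResidueField O)).injective ?_
    have e : ∀ a b, algebraMap (ZMod 2) (ResidueField O) (T.r₂ (T.F i) a b) = (c • 1 : M2 _) a b :=
      fun a b => congrFun (congrFun hc a) b
    rw [e, Matrix.smul_apply, Matrix.smul_apply, smul_eq_mul, smul_eq_mul, map_mul, e]
    fin_cases a <;> fin_cases b <;> simp
  obtain ⟨a, b, hab⟩ := exists_smul_add_of_commute hns (h.cls_commute_frobenius i)
  have hres := res_eq_one_at_q T i (L.τ_mem i)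
  have hδτ : (L.R (L.τ i)).map δ = a • 1 + b • res T (T.F i) := by
    rw [← cls_mul_res δ, hres, mul_one, hab]
  refine ⟨a, b, hab, ?_, ?_⟩
  · have e := h.trace_map (L.R (L.τ i))
    rw [hδτ, L.trace_τ, h.add, show δ 2 = 0 from h.map_natCast' 2, zero_add, Matrix.trace_add,
      Matrix.trace_smul, Matrix.trace_smul, Matrix.trace_one, Fintype.card_fin, smul_eq_mul,
      smul_eq_mul, Nat.cast_ofNat, CharTwo.two_eq_zero, mul_zero, zero_add] at e
    exact e.symm
  · have hX : (L.R (L.τ i)).map L.aug = 1 := by rw [R_map_aug, hres]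
    have hP : (↑(L.P i)⁻¹ : M2 L.B).map L.aug * (L.P i : M2 L.B).map L.aug = 1 := by
      rw [← Matrix.map_mul, Units.inv_mul, Matrix.map_one _ (map_zero _) (map_one _)]
    have hF : ((↑(L.P i)⁻¹ : M2 L.B).map L.aug * res T (T.F i) *
        (L.P i : M2 L.B).map L.aug) 0 0 = L.aug (L.X i) := by
      rw [← R_map_aug L, ← Matrix.map_mul, ← Matrix.map_mul, Matrix.map_apply, (L.frame i).2]
    rw [L.y_eq, h.map_sub', h.map_one', sub_zero,
      show δ (((↑(L.P i)⁻¹ : M2 L.B) * L.R (L.τ i) * L.P i) 0 0) =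
        (((↑(L.P i)⁻¹ : M2 L.B) * L.R (L.τ i) * L.P i).map δ) 0 0 from rfl,
      h.map_frame i hX, hδτ]
    simp only [mul_add, add_mul, mul_smul_comm, smul_mul_assoc, mul_one, hP, Matrix.add_apply,
      Matrix.smul_apply, hF, smul_eq_mul, Matrix.one_apply_eq]

/-- Reciprocity removes the component along Frobenius. -/
theorem cls_tau_scalar (hR : IsResidualTwo T.r₂ N) {b₀ : L.B} (hb₀ : L.aug b₀ = 0)
    (hδb₀ : δ b₀ ≠ 0)
    (hdual : ∀ i, ∃ d ∈ classes (res T) N,
      ∀ j, phi (res T) (T.F j) d = if i = j then 1 else 0) (i : Fin m) :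
    ∃ a : ResidueField O, cls L δ (L.τ i) = a • 1 ∧ δ (L.x i) = 0 ∧ δ (L.y i) = a := by
  classical
  haveI := charP_res (O := O)
  choose a b hab hx hy using h.data_at_q
  obtain ⟨d, ⟨hd2, hdtr, hdunr, hdN⟩, hphi⟩ := hdual i
  obtain ⟨pr, hpr, hat⟩ := exists_pairChoice_at T
  have hc2 := h.cls_mem_localTwo hR hb₀ hδb₀
  have hsum := Recip.reciprocity (r₀ := T.r₂) hR.ss.finite hR.conj h.cls_isAdCocycle hd2.1
    h.cls_isFiniteLevel hd2.2.1 (Local.isLocalCobd_cup hR.ss hc2 hd2) hpr
    (S := Finset.univ.image T.q) (fun p hp => by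
      obtain ⟨j, -, rfl⟩ := Finset.mem_image.1 hp
      exact ⟨T.q_prime j, q_ne_two T j⟩) (fun p hp hp2 hpS => by
      obtain ⟨A, hA, hst⟩ := hpr p hp hp2
      by_cases hpN : p ∣ N
      · obtain ⟨M, hM⟩ := h.cls_cobd_at hR hp hpN hA
        obtain ⟨M', hM'⟩ := hdN p hp hpN A hA
        exact Recip.tameFun_cup_of_coboundary (hp.odd_of_ne_two hp2) hst.rel h.cls_isAdCocycle
          hd2.1 (hM _ hst.inertia) (hM' _ hst.inertia)
      · have h2N : ¬ p ∣ 2 * N := fun hd' => by
          rcases (Nat.Prime.dvd_mul hp).1 hd' with h' | h'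
          · exact hp2 ((Nat.prime_dvd_prime_iff_eq hp Nat.prime_two).1 h')
          · exact hpN h'
        rw [Recip.tameFun_cup_of_unramified (hp.odd_of_ne_two hp2) h.cls_isAdCocycle
          (Local.extRep_eq_one (hR.unramified p hp h2N A hA _ hst.inertia))
          (hdunr p hp h2N A hA _ hst.inertia),
          h.cls_unramified hp h2N (fun j e => hpS (Finset.mem_image.2 ⟨j, Finset.mem_univ _, e.symm⟩))
            hA hst.inertia, zero_mul, Matrix.trace_zero])
  rw [Finset.sum_image fun x _ y _ e => T.q_injective e] at hsum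
  have hterm : ∀ j, Recip.tameFun (T.q j) (pr (T.q j)).1 (pr (T.q j)).2
      (Local.cup (res T) (cls L δ) d) = b j * if i = j then 1 else 0 := by
    intro j
    have hst := hat j
    have hd0 : ∀ u ∈ (T.A j).inertiaSubgroupIn ℚ, d u = 0 :=
      hdunr (T.q j) (T.q_prime j) (q_not_dvd_two_mul T j) (T.A j) (T.liesOver j)
    rw [Recip.tameFun_cup_of_unramified ((T.q_prime j).odd_of_ne_two (q_ne_two T j))
      h.cls_isAdCocycle (res_eq_one_at_q T j hst.inertia) (hd0 _ hst.inertia),
      (h.cls_at_q j hst.inertia).2 hst.moves, hab j]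
    have hds : d (T.F j) = d (pr (T.q j)).1 := by
      have hu := inv_mul_mem_inertia (T.isFrobenius j) hst.frob
      have e := hd2.1 (pr (T.q j)).1 ((pr (T.q j)).1⁻¹ * T.F j)
      rwa [mul_inv_cancel_left, hd0 _ hu, mul_zero, zero_mul, zero_add] at e
    rw [← hds, add_mul, smul_mul_assoc, smul_mul_assoc, one_mul, Matrix.trace_add,
      Matrix.trace_smul, Matrix.trace_smul, hdtr, smul_zero, zero_add, smul_eq_mul,
      Matrix.trace_mul_comm, ← phi_apply (res T) (T.F j) d, hphi]
  simp only [hterm, mul_ite, mul_one, mul_zero, Finset.sum_ite_eq, Finset.mem_univ, if_true] at hsum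
  refine ⟨a i, ?_, ?_, ?_⟩
  · rw [hab i, hsum, zero_smul, add_zero]
  · rw [hx i, hsum, zero_mul]
  · rw [hy i, hsum, zero_mul, add_zero]

/-- The detection step. -/
theorem eq_zero_of_detect (hR : IsResidualTwo T.r₂ N)
    (hdet : ∀ d ∈ classes (res T) N, (∀ i, phi (res T) (T.F i) d = 0) →
      ∃ X : M2 (ResidueField O), d = cobdLin (res T) X)
    (hdual : ∀ i, ∃ d ∈ classes (res T) N,
      ∀ j, phi (res T) (T.F j) d = if i = j then 1 else 0)
    (o : Fin m → Bool) (hX : ∀ i, δ (L.X i) = 0)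
    (hrel : ∀ i, δ (L.y i - if o i then L.x i else 0) = 0) (b₁ : L.B) : δ b₁ = 0 := by
  classical
  haveI := charP_res (O := O)
  by_contra hb₁
  obtain ⟨c₁, hc₁⟩ := residue_surjective (L.aug b₁)
  have hb₀ : L.aug (b₁ - algebraMap O L.B c₁) = 0 := by
    rw [map_sub, L.aug.commutes, show algebraMap O (ResidueField O) c₁ = _ from hc₁, sub_self]
  have hδb₀ : δ (b₁ - algebraMap O L.B c₁) ≠ 0 := by rwa [h.map_sub', h.alg, sub_zero]
  -- unramified at the auxiliary primes
  have hτ : ∀ i, cls L δ (L.τ i) = 0 := fun i => by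
    obtain ⟨a, ha, hx, hy⟩ := h.cls_tau_scalar hR hb₀ hδb₀ hdual i
    have e := hrel i
    have hdx : δ (if o i then L.x i else 0) = 0 := by
      split_ifs
      · exact hx
      · exact h.map_zero'
    rw [h.map_sub', hdx, sub_zero, hy] at e
    rw [ha, e, zero_smul]
  have hunr : ∀ v : ℕ, v.Prime → ¬ v ∣ 2 * N → ∀ A : ValuationSubring QBar, A.LiesOverPrime v →
      ∀ g ∈ A.inertiaSubgroupIn ℚ, cls L δ g = 0 := by
    intro v hv hvN A hA g hg
    by_cases hvq : ∀ i, v ≠ T.q i
    · exact h.cls_unramified hv hvN hvq hA hg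
    push Not at hvq
    obtain ⟨i, rfl⟩ := hvq
    obtain ⟨u, hu⟩ := exists_smul_eq (T.liesOver i) hA hv
    have hg0 : u⁻¹ * g * u ∈ (T.A i).inertiaSubgroupIn ℚ := by
      refine (mem_inertia_smul_iff (g := u) (A := T.A i)).1 ?_
      rw [hu, show u * (u⁻¹ * g * u) * u⁻¹ = g by group]
      exact hg
    have hr1 := res_eq_one_at_q T i hg0
    have hc0 : cls L δ (u⁻¹ * g * u) = 0 :=
      (h.cls_at_q i hg0).1.elim id fun e => e.trans (hτ i)
    rw [show g = u * ((u⁻¹ * g * u) * u⁻¹) by group, h.cls_isAdCocycle,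
      h.cls_isAdCocycle (u⁻¹ * g * u), hc0, hr1, res_inv_eq_one_at_q T i hg0, one_mul, mul_one,
      add_zero, ← h.cls_isAdCocycle, mul_inv_cancel, h.cls_one]
  -- the determinant
  have hdet1 : ∀ g, δ (L.R g).det = 0 := by
    let χ : GQ →* Multiplicative (ResidueField O) :=
      { toFun := fun g => Multiplicative.ofAdd (cls L δ g).trace
        map_one' := by rw [h.cls_one, Matrix.trace_zero]; rfl
        map_mul' := fun g g' => by
          rw [← ofAdd_add, h.cls_isAdCocycle g g', Matrix.trace_add, Matrix.trace_mul_cycle,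
            res_inv_mul, one_mul, add_comm] }
    have hχ : χ = 1 := by
      refine eq_one_of_trivial_on_inertia' χ ?_ fun v hv A hA g hg => ?_
      · obtain ⟨E, hE, hE'⟩ := h.cls_isFiniteLevel
        exact ⟨E, hE, fun g hg => by
          show Multiplicative.ofAdd (cls L δ g).trace = 1
          rw [hE' g hg, Matrix.trace_zero]; rfl⟩
      show Multiplicative.ofAdd (cls L δ g).trace = 1
      refine congrArg Multiplicative.ofAdd (?_ : (cls L δ g).trace = 0)
      by_cases hvN : v ∣ N
      · rw [h.trace_cls, (L.unipotent v hv hvN A hA g hg).2, h.map_one']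
      by_cases hv2 : v = 2
      · subst hv2
        have hodd : ¬ 2 ∣ ∏ i, T.q i := fun hd => by
          obtain ⟨i, -, hi⟩ := (Prime.dvd_finsetProd_iff Nat.prime_two.prime T.q).1 hd
          exact q_ne_two T i ((Nat.prime_dvd_prime_iff_eq Nat.prime_two (T.q_prime i)).1 hi).symm
        have hcong := L.det_congr g (fun z hz => inertia_root hA Nat.prime_two hg hz hodd) 1 1
          (fun z hz => by
            rw [pow_one] at hz
            rw [pow_one]
            rcases sq_eq_one_iff.1 hz with rfl | rfl <;> simp)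
        obtain ⟨z, hz⟩ := Ideal.mem_span_singleton'.1 hcong
        rw [h.trace_cls, ← sub_add_cancel (L.R g).det ((1 : ℕ) : L.B), ← hz, h.add,
          h.map_natCast', add_zero, h.mul, pow_one, show δ 2 = 0 from h.map_natCast' 2, mul_zero,
          zero_add, map_ofNat, CharTwo.two_eq_zero, zero_mul]
      · have h2N : ¬ v ∣ 2 * N := fun hd' => by
          rcases (Nat.Prime.dvd_mul hv).1 hd' with h' | h'
          · exact hv2 ((Nat.prime_dvd_prime_iff_eq hv Nat.prime_two).1 h')
          · exact hvN h'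
        rw [hunr v hv h2N A hA g hg, Matrix.trace_zero]
    intro g
    rw [← h.trace_cls]
    exact congrArg Multiplicative.toAdd (DFunLike.congr_fun hχ g)
  -- the class is global
  have hmem : cls L δ ∈ classes (res T) N :=
    ⟨h.cls_mem_localTwo hR hb₀ hδb₀, fun g => by rw [h.trace_cls, hdet1],
      hunr, fun v hv hvN A hA => h.cls_cobd_at hR hv hvN hA⟩
  have hphi : ∀ i, phi (res T) (T.F i) (cls L δ) = 0 := fun i => by
    rw [phi_apply, h.trace_cls_mul]
    set Q := (↑(L.P i)⁻¹ : M2 L.B) * L.R (T.F i) * L.P i with hQ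
    obtain ⟨h10, h00⟩ := L.frame i
    change Q 1 0 = 0 at h10
    change Q 0 0 = L.X i at h00
    have htr : (L.R (T.F i)).trace = L.X i + Q 1 1 := by
      rw [← h00, ← Matrix.trace_fin_two, hQ, Matrix.trace_units_conj']
    have hd : (L.R (T.F i)).det = L.X i * Q 1 1 := by
      rw [← Matrix.det_units_conj' (L.P i) (L.R (T.F i)), ← hQ, Matrix.det_fin_two, h00,
        h10, mul_zero, sub_zero]
    have hXunit : L.aug (L.X i) ≠ 0 := fun e => by
      have h1 : L.aug (L.R (T.F i)).det = 1 := by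
        have h2 := RingHom.map_det (L.aug : L.B →+* ResidueField O) (L.R (T.F i))
        refine h2.trans ?_
        rw [RingHom.mapMatrix_apply]
        exact (congrArg Matrix.det (R_map_aug L _)).trans (res_det _)
      rw [hd, map_mul, e, zero_mul] at h1
      exact zero_ne_one h1
    have e := hdet1 (T.F i)
    rw [hd, h.mul, hX, mul_zero, add_zero, mul_eq_zero] at e
    rw [htr, h.add, hX, zero_add, e.resolve_left hXunit]
  obtain ⟨X₀, hX₀⟩ := hdet _ hmem hphi
  have htr : ∀ g, δ (L.R g).trace = 0 := fun g => by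
    rw [← h.trace_cls_mul, hX₀]
    show ((res T g * X₀ * res T g⁻¹ - X₀) * res T g).trace = 0
    rw [sub_mul, mul_assoc (res T g * X₀), res_inv_mul, mul_one, Matrix.trace_sub,
      Matrix.trace_mul_comm, sub_self]
  refine hb₁ ((?_ : ∀ a ∈ Algebra.adjoin O ((Set.range fun σ => (L.R σ).trace) ∪
      (Set.range fun σ => (L.R σ).det) ∪ Set.range L.X), δ a = 0) b₁
    (by rw [L.adjoin_eq_top]; exact Algebra.mem_top))
  intro a hmem₁
  induction hmem₁ using Algebra.adjoin_induction with
  | mem x hx =>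
    rcases hx with (⟨g, rfl⟩ | ⟨g, rfl⟩) | ⟨i, rfl⟩
    · exact htr g
    · exact hdet1 g
    · exact hX i
  | algebraMap c => exact h.alg c
  | add x y _ _ hx hy => rw [h.add, hx, hy, add_zero]
  | mul x y _ _ hx hy => rw [h.mul, hx, hy, mul_zero, mul_zero, add_zero]

end IsTangent

/-- A derivation killing an ideal, when the ideal and the square do not fill the maximal ideal. -/
theorem exists_tangent (L : TwoLevel T μ) {I : Ideal L.B} (hIm : I ≤ maximalIdeal L.B)
    (hO : (maximalIdeal O).map (algebraMap O L.B) ≤ I) (hsq : maximalIdeal L.B ^ 2 ≤ I)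
    {e : L.B} (he : e ∈ maximalIdeal L.B) (heI : e ∉ I) :
    ∃ δ : L.B → ResidueField O, IsTangent L δ ∧ (∀ a ∈ I, δ a = 0) ∧ δ e ≠ 0 := by
  let f : O →+* L.B ⧸ I := (Ideal.Quotient.mk I).comp (algebraMap O L.B)
  have hf : ∀ c ∈ maximalIdeal O, f c = 0 := fun c hc =>
    Ideal.Quotient.eq_zero_iff_mem.2 (hO (Ideal.mem_map_of_mem _ hc))
  letI : Algebra (ResidueField O) (L.B ⧸ I) := (Ideal.Quotient.lift (maximalIdeal O) f hf).toAlgebra
  have hsmul : ∀ (c : O) (z : L.B),
      residue O c • Ideal.Quotient.mk I z = Ideal.Quotient.mk I (algebraMap O L.B c * z) :=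
    fun c z => by
      rw [Algebra.smul_def, map_mul]
      rfl
  have hline : Ideal.Quotient.mk I e ∉ Submodule.span (ResidueField O) {(1 : L.B ⧸ I)} := by
    intro hmem
    obtain ⟨u, hu⟩ := Submodule.mem_span_singleton.1 hmem
    obtain ⟨c, rfl⟩ := residue_surjective u
    rw [← map_one (Ideal.Quotient.mk I), hsmul, mul_one, Ideal.Quotient.eq] at hu
    have h1 := (aug_eq_zero_iff L _).2 (hIm hu)
    rw [map_sub, (aug_eq_zero_iff L e).2 he, sub_zero, L.aug.commutes] at h1
    refine heI ?_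
    have h2 : algebraMap O L.B c ∈ I :=
      hO (Ideal.mem_map_of_mem _ ((residue_eq_zero_iff c).1 h1))
    simpa using I.sub_mem h2 hu
  obtain ⟨lam, hlam, hker⟩ := Submodule.exists_dual_map_eq_bot_of_notMem hline inferInstance
  have h1 : lam 1 = 0 := by
    have := Submodule.mem_map_of_mem (f := lam) (Submodule.mem_span_singleton_self (1 : L.B ⧸ I))
    rwa [hker, Submodule.mem_bot] at this
  refine ⟨fun a => lam (Ideal.Quotient.mk I a), ⟨fun a b => by rw [map_add, map_add],
    fun a b => ?_, fun c => ?_⟩, fun a ha => ?_, hlam⟩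
  · obtain ⟨u, hu⟩ := residue_surjective (L.aug a)
    obtain ⟨v, hv⟩ := residue_surjective (L.aug b)
    have hα : a - algebraMap O L.B u ∈ maximalIdeal L.B := (aug_eq_zero_iff L _).1 (by
      rw [map_sub, L.aug.commutes, show algebraMap O (ResidueField O) u = _ from hu, sub_self])
    have hβ : b - algebraMap O L.B v ∈ maximalIdeal L.B := (aug_eq_zero_iff L _).1 (by
      rw [map_sub, L.aug.commutes, show algebraMap O (ResidueField O) v = _ from hv, sub_self])
    have h2 := hsq (by rw [pow_two]; exact Ideal.mul_mem_mul hα hβ)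
    have e' : Ideal.Quotient.mk I (a * b) = residue O u • Ideal.Quotient.mk I b +
        residue O v • Ideal.Quotient.mk I a - residue O u • residue O v • (1 : L.B ⧸ I) := by
      rw [hsmul, hsmul, ← map_one (Ideal.Quotient.mk I), hsmul, hsmul, ← map_add, ← map_sub,
        Ideal.Quotient.eq]
      convert h2 using 1
      ring
    show lam (Ideal.Quotient.mk I (a * b)) = _
    rw [e', map_sub, map_add, map_smul, map_smul, map_smul, map_smul, h1, smul_zero, smul_zero,
      sub_zero, smul_eq_mul, smul_eq_mul, hu, hv]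
  · show lam (Ideal.Quotient.mk I (algebraMap O L.B c)) = 0
    rw [show Ideal.Quotient.mk I (algebraMap O L.B c) = residue O c • (1 : L.B ⧸ I) by
      rw [← map_one (Ideal.Quotient.mk I), hsmul, mul_one], map_smul, h1, smul_zero]
  · show lam (Ideal.Quotient.mk I a) = 0
    rw [Ideal.Quotient.eq_zero_iff_mem.2 ha, map_zero]

/-- **Generation near a point.** -/
theorem hgen_of_detect (T : TwoSetup O N m) {μ : ℕ} (L : TwoLevel T μ)
    (hR : IsResidualTwo T.r₂ N)
    (hdet : ∀ d ∈ classes (Local.extRep (ResidueField O) T.r₂) N,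
      (∀ i, phi (Local.extRep (ResidueField O) T.r₂) (T.F i) d = 0) →
      ∃ X : M2 (ResidueField O), d = cobdLin (Local.extRep (ResidueField O) T.r₂) X)
    (hdual : ∀ i, ∃ d ∈ classes (Local.extRep (ResidueField O) T.r₂) N,
      ∀ j, phi (Local.extRep (ResidueField O) T.r₂) (T.F j) d = if i = j then 1 else 0)
    (r0 : Fin m → O) (hr0 : ∀ i, residue O (r0 i) = residue O (T.rE i)) (o : Fin m → Bool)
    (b : L.B) :
    ∃ c : O, b - algebraMap O L.B c ∈
      Ideal.span (Set.range fun i => L.X i - algebraMap O L.B (r0 i)) ⊔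
        Core.relations L.x L.y o := by
  haveI := IsNoetherianRing.of_finite O L.B
  set J := Ideal.span (Set.range fun i => L.X i - algebraMap O L.B (r0 i)) ⊔
    Core.relations L.x L.y o with hJdef
  set mO := (maximalIdeal O).map (algebraMap O L.B) with hmO
  have hx0 : ∀ i, L.aug (L.x i) = 0 := fun i => by
    have hres := res_eq_one_at_q T i (L.τ_mem i)
    have e : L.aug (L.R (L.τ i)).trace = ((L.R (L.τ i)).map L.aug).trace :=
      AddMonoidHom.map_trace L.aug _
    rw [R_map_aug, hres, L.trace_τ, map_add, map_ofNat, Matrix.trace_one, Fintype.card_fin,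
      Nat.cast_ofNat] at e
    exact add_eq_left.1 e
  have hy0 : ∀ i, L.aug (L.y i) = 0 := fun i => by
    have hP : (↑(L.P i)⁻¹ : M2 L.B).map L.aug * (L.P i : M2 L.B).map L.aug = 1 := by
      rw [← Matrix.map_mul, Units.inv_mul, Matrix.map_one _ (map_zero _) (map_one _)]
    rw [L.y_eq, map_sub, map_one,
      ← Matrix.map_apply (f := L.aug) (M := (↑(L.P i)⁻¹ : M2 L.B) * L.R (L.τ i) * (L.P i : M2 L.B)),
      Matrix.map_mul, Matrix.map_mul, R_map_aug, res_eq_one_at_q T i (L.τ_mem i), mul_one, hP,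
      Matrix.one_apply_eq, sub_self]
  have hJ : J ≤ maximalIdeal L.B := by
    refine sup_le (Ideal.span_le.2 ?_) (Ideal.span_le.2 ?_)
    · rintro _ ⟨i, rfl⟩
      refine (aug_eq_zero_iff L _).1 ?_
      rw [map_sub, L.aug_X, L.aug.commutes,
        show algebraMap O (ResidueField O) (r0 i) = residue O (r0 i) from rfl, hr0, sub_self]
    · rintro _ ⟨i, rfl⟩
      refine (aug_eq_zero_iff L _).1 ?_
      rw [map_sub, hy0]
      split_ifs <;> simp [hx0]
  have hmO' : mO ≤ maximalIdeal L.B := Ideal.map_le_iff_le_comap.2 fun c hc => by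
    rw [Ideal.mem_comap, ← aug_eq_zero_iff L, L.aug.commutes]
    exact (residue_eq_zero_iff c).2 hc
  -- the maximal ideal
  set I := J ⊔ mO ⊔ maximalIdeal L.B ^ 2 with hIdef
  have hIm : I ≤ maximalIdeal L.B := sup_le (sup_le hJ hmO') (Ideal.pow_le_self two_ne_zero)
  have hmI : maximalIdeal L.B ≤ I := by
    intro e he
    by_contra heI
    obtain ⟨δ, hδ, hkill, hne⟩ := exists_tangent L hIm
      (le_sup_of_le_left le_sup_right) le_sup_right he heI
    refine hne (hδ.eq_zero_of_detect hR hdet hdual o (fun i => ?_) (fun i => ?_) e)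
    · have h1 := hkill _ (Ideal.mem_sup_left (Ideal.mem_sup_left (Ideal.mem_sup_left
        (Ideal.subset_span ⟨i, rfl⟩))))
      rwa [hδ.map_sub', hδ.alg, sub_zero] at h1
    · exact hkill _ (Ideal.mem_sup_left (Ideal.mem_sup_left (Ideal.mem_sup_right
        (Ideal.subset_span ⟨i, rfl⟩))))
  have hm : maximalIdeal L.B ≤ J ⊔ mO := by
    refine Submodule.le_of_le_smul_of_le_jacobson_bot (I := maximalIdeal L.B)
      (IsNoetherian.noetherian _) (maximalIdeal_le_jacobson _) ?_
    rw [smul_eq_mul, ← pow_two]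
    exact hmI
  -- the algebra
  have htop : (⊤ : Submodule O L.B) ≤
      Submodule.span O {1} ⊔ J.restrictScalars O := by
    refine Submodule.le_of_le_smul_of_le_jacobson_bot (I := maximalIdeal O)
      Module.Finite.fg_top (maximalIdeal_le_jacobson _) ?_
    intro a _
    obtain ⟨c, hc⟩ := residue_surjective (L.aug a)
    have hmem : a - algebraMap O L.B c ∈ J ⊔ mO := hm ((aug_eq_zero_iff L _).1 (by
      rw [map_sub, L.aug.commutes, show algebraMap O (ResidueField O) c = _ from hc, sub_self]))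
    obtain ⟨j, hj, z, hz, hjz⟩ := Submodule.mem_sup.1 hmem
    rw [show a = algebraMap O L.B c + j + z by rw [add_assoc, hjz, add_sub_cancel]]
    refine Submodule.add_mem_sup (Submodule.add_mem_sup ?_ hj) ?_
    · exact Submodule.mem_span_singleton.2 ⟨c, (Algebra.algebraMap_eq_smul_one c).symm⟩
    · rw [Ideal.smul_top_eq_map]
      exact hz
  obtain ⟨u, hu, j, hj, huj⟩ := Submodule.mem_sup.1 (htop (Submodule.mem_top (x := b)))
  obtain ⟨c, rfl⟩ := Submodule.mem_span_singleton.1 hu
  refine ⟨c, ?_⟩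
  rw [← huj, Algebra.algebraMap_eq_smul_one, add_sub_cancel_left]
  exact hj

end Fermat.Agent.RT.Two.Select

end
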