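import Fermat.Agent.RT.Two.Recip.Pair

/-!
# Exponent-two quotients of inertia at an odd prime

A homomorphism of finite level from inertia at an odd prime `q` to a group of exponent two is
determined by its value at one element moving `√q`.
-/

set_option autoImplicit false
set_option linter.style.haveILetI false

noncomputable section

namespace Fermat.Agent.RT.Two.Select

open Fermat.Agent.Arith Fermat.Agent.CFT.Flat
open scoped Pointwise

theorem sqrt_cases {r₀ : QBar} {q : ℕ} (hr : r₀ ^ 2 = (q : QBar)) (g : GQ) :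
    g r₀ = r₀ ∨ g r₀ = -r₀ :=
  sq_eq_sq_iff_eq_or_eq_neg.1 (by rw [← map_pow, hr, map_natCast])

theorem zsmul_parity {X : Type*} [AddCommGroup X] (hX : ∀ x : X, x + x = 0) (j : ℤ) (x : X) :
    (Even j → j • x = 0) ∧ (Odd j → j • x = x) := by
  refine ⟨?_, ?_⟩
  · rintro ⟨i, rfl⟩; rw [add_smul, hX]
  · rintro ⟨i, rfl⟩; rw [add_smul, two_mul, add_smul, hX, zero_add, one_smul]

/-- The statement at the standard place. -/
theorem hom_inG_two (q : ℕ) [hq : Fact q.Prime] (hq2 : q ≠ 2) {X : Type} [AddCommGroup X]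
    (hX : ∀ x : X, x + x = 0) {c : GQ → X}
    (hadd : ∀ g ∈ inG q, ∀ h ∈ inG q, c (g * h) = c g + c h)
    (L : IntermediateField ℚ QBar) [FiniteDimensional ℚ L]
    (hL : ∀ g ∈ inG q, (∀ y ∈ L, g y = y) → c g = 0)
    {τ : GQ} (hτ : τ ∈ inG q) {r₀ : QBar} (hr : r₀ ^ 2 = (q : QBar)) (hmove : τ r₀ ≠ r₀)
    {g : GQ} (hg : g ∈ inG q) :
    (g r₀ = r₀ → c g = 0) ∧ (g r₀ ≠ r₀ → c g = c τ) := by
  classical
  have hlev : IsLevel q (inG q ⊓ L.fixingSubgroup) := ⟨inf_le_left, L, inferInstance, le_rfl⟩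
  obtain ⟨E, hE, hEn, hrE, hEle⟩ := hlev.exists_field r₀
  haveI := hE
  haveI := hEn
  set H : Subgroup GQ := inG q ⊓ E.fixingSubgroup with hHdef
  have hH : IsLevel q H := ⟨inf_le_left, E, inferInstance, le_rfl⟩
  have hnorm : ∀ g ∈ inG q, ∀ h ∈ H, g⁻¹ * h * g ∈ H := by
    intro g hg h hh
    refine ⟨(inG q).mul_mem ((inG q).mul_mem ((inG q).inv_mem hg) hh.1) hg, ?_⟩
    refine (IntermediateField.mem_fixingSubgroup_iff E _).2 fun y hy => ?_
    have hgy : g y ∈ E := by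
      have := AlgEquiv.restrictNormal_commutes g E ⟨y, hy⟩
      exact this ▸ (g.restrictNormal E ⟨y, hy⟩).2
    rw [AlgEquiv.mul_apply, AlgEquiv.mul_apply,
      (IntermediateField.mem_fixingSubgroup_iff E _).1 hh.2 _ hgy]
    exact g.symm_apply_apply y
  obtain ⟨π, z, -, -, -, hzN, hzH, hwild, -⟩ := exists_tame_char q hH hnorm
  set N := H.relIndex (inG q)
  have hN : 0 < N := Nat.pos_of_ne_zero hH.relIndex_ne_zero
  haveI : NeZero N := ⟨hN.ne'⟩
  -- a generator of the tame quotient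
  let zu : inG q →* QBarˣ := z.toHomUnits
  have hle : zu.range ≤ rootsOfUnity N QBar := by
    rintro _ ⟨a, rfl⟩
    exact (mem_rootsOfUnity _ _).2 (Units.ext (by
      rw [Units.val_pow_eq_pow_val, MonoidHom.coe_toHomUnits, hzN, Units.val_one]))
  haveI : Finite zu.range := Finite.of_injective _ (Subgroup.inclusion_injective hle)
  obtain ⟨⟨x₀, g₀, rfl⟩, hgen⟩ := IsCyclic.exists_generator (α := zu.range)
  have hgen' : ∀ a : inG q, ∃ j : ℤ, z (g₀ ^ j) = z a := fun a => by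
    obtain ⟨j, hj⟩ := Subgroup.mem_zpowers_iff.1 (hgen ⟨zu a, a, rfl⟩)
    refine ⟨j, ?_⟩
    have h := congrArg (fun u : zu.range => ((u : QBarˣ) : QBar)) hj
    simp only [SubgroupClass.coe_zpow] at h
    rw [← map_zpow] at h
    simpa [zu] using h
  -- homomorphisms killing the level factor through the tame quotient
  have hfac : ∀ {Y : Type} [AddCommGroup Y] (ψ : inG q →* Multiplicative Y),
      (∀ y : Y, y + y = 0) → (∀ a : inG q, (a : GQ) ∈ H → ψ a = 1) →
      ∀ a : inG q, ∀ j : ℤ, z (g₀ ^ j) = z a → (ψ a).toAdd = j • (ψ g₀).toAdd := by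
    intro Y _ ψ hY hψ a j hj
    have h1 : ∀ b : inG q, z b = 1 → ψ b = 1 := fun b hb => by
      obtain ⟨i, hi⟩ := hwild b hb
      have h2 := congrArg Multiplicative.toAdd (hψ _ hi)
      rw [map_pow, toAdd_pow, toAdd_one] at h2
      obtain ⟨l, hl⟩ : Odd (q ^ i) := (hq.out.odd_of_ne_two hq2).pow
      rw [hl, add_smul, mul_smul, two_nsmul, hY, zero_add, one_smul] at h2
      exact Multiplicative.toAdd.injective h2
    have h3 : ψ (g₀ ^ j * a⁻¹) = 1 := h1 _ (by
      rw [map_mul, hj, ← map_mul, mul_inv_cancel, map_one])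
    rw [map_mul, map_inv, mul_inv_eq_one, map_zpow] at h3
    rw [← h3, toAdd_zpow]
  -- the function and the parity of `√q`
  have hc1 : c 1 = 0 := by
    have h := hadd 1 (one_mem _) 1 (one_mem _)
    rw [mul_one] at h
    exact left_eq_add.1 h
  let ψc : inG q →* Multiplicative X :=
    { toFun := fun a => Multiplicative.ofAdd (c a)
      map_one' := by rw [OneMemClass.coe_one, hc1]; rfl
      map_mul' := fun a b => by rw [← ofAdd_add, Subgroup.coe_mul, hadd _ a.2 _ b.2] }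
  have hr0 : r₀ ≠ -r₀ := by
    intro h
    rw [eq_neg_iff_add_eq_zero, ← two_mul] at h
    rcases mul_eq_zero.1 h with h | h
    · exact two_ne_zero h
    · exact hq.out.ne_zero (by rw [h, zero_pow two_ne_zero] at hr; exact_mod_cast hr.symm)
  let ψr : inG q →* Multiplicative (ZMod 2) :=
    { toFun := fun a => Multiplicative.ofAdd (if (a : GQ) r₀ = r₀ then 0 else 1)
      map_one' := by rw [if_pos (by rw [OneMemClass.coe_one, AlgEquiv.one_apply])]; rfl
      map_mul' := fun a b => by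
        rw [← ofAdd_add, Subgroup.coe_mul, AlgEquiv.mul_apply]
        refine congrArg Multiplicative.ofAdd ?_
        rcases sqrt_cases hr (b : GQ) with hb | hb <;> rcases sqrt_cases hr (a : GQ) with ha | ha <;>
          simp only [hb, map_neg, ha, neg_neg, hr0.symm, ↓reduceIte] <;> decide }
  have hψc : ∀ a : inG q, (a : GQ) ∈ H → ψc a = 1 := fun a ha => by
    show Multiplicative.ofAdd (c a) = 1
    rw [hL a a.2 fun y hy => (IntermediateField.mem_fixingSubgroup_iff L _).1 (hEle ha).2 y hy]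
    rfl
  have hψr : ∀ a : inG q, (a : GQ) ∈ H → ψr a = 1 := fun a ha => by
    show Multiplicative.ofAdd _ = 1
    rw [if_pos ((IntermediateField.mem_fixingSubgroup_iff E _).1 ha.2 r₀ hrE)]
    rfl
  obtain ⟨jτ, hjτ⟩ := hgen' ⟨τ, hτ⟩
  obtain ⟨j, hj⟩ := hgen' ⟨g, hg⟩
  have eτ := hfac (Y := ZMod 2) ψr (by decide) hψr _ _ hjτ
  have eg := hfac (Y := ZMod 2) ψr (by decide) hψr _ _ hj
  have fτ : c τ = jτ • (ψc g₀).toAdd := hfac ψc hX hψc _ _ hjτ
  have fg : c g = j • (ψc g₀).toAdd := hfac ψc hX hψc _ _ hj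
  have h2 : ∀ y : ZMod 2, y + y = 0 := by decide
  change (if τ r₀ = r₀ then (0 : ZMod 2) else 1) = jτ • _ at eτ
  change (if g r₀ = r₀ then (0 : ZMod 2) else 1) = j • _ at eg
  rw [if_neg hmove] at eτ
  have hjo : Odd jτ := (Int.even_or_odd jτ).resolve_left fun he => one_ne_zero (α := ZMod 2)
    (by rw [eτ, (zsmul_parity h2 jτ _).1 he])
  rw [(zsmul_parity h2 jτ _).2 hjo] at eτ
  rw [← eτ] at eg
  refine ⟨fun hfix => ?_, fun hmv => ?_⟩
  · rw [if_pos hfix] at eg
    rw [fg, (zsmul_parity hX j _).1 ((Int.even_or_odd j).resolve_right fun ho =>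
      zero_ne_one (α := ZMod 2) (by rw [eg, (zsmul_parity h2 j _).2 ho]))]
  · rw [if_neg hmv] at eg
    rw [fg, fτ, (zsmul_parity hX jτ _).2 hjo, (zsmul_parity hX j _).2
      ((Int.even_or_odd j).resolve_left fun he => one_ne_zero (α := ZMod 2)
        (by rw [eg, (zsmul_parity h2 j _).1 he]))]

/-- **Inertia at an odd prime has one exponent-two quotient.** -/
theorem hom_inertia_two {q : ℕ} (hq : q.Prime) (hq2 : q ≠ 2) {A : ValuationSubring QBar}
    (hA : A.LiesOverPrime q) {X : Type} [AddCommGroup X] (hX : ∀ x : X, x + x = 0) {c : GQ → X}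
    (hadd : ∀ g ∈ A.inertiaSubgroupIn ℚ, ∀ h ∈ A.inertiaSubgroupIn ℚ, c (g * h) = c g + c h)
    (hlev : ∃ L : IntermediateField ℚ QBar, FiniteDimensional ℚ L ∧
      ∀ g ∈ A.inertiaSubgroupIn ℚ, (∀ y ∈ L, g y = y) → c g = 0)
    {τ : GQ} (hτ : τ ∈ A.inertiaSubgroupIn ℚ) {r₀ : QBar} (hr : r₀ ^ 2 = (q : QBar))
    (hmove : τ r₀ ≠ r₀) {g : GQ} (hg : g ∈ A.inertiaSubgroupIn ℚ) :
    (g r₀ = r₀ → c g = 0) ∧ (g r₀ ≠ r₀ → c g = c τ) := by
  haveI : Fact q.Prime := ⟨hq⟩
  haveI : IsGalois ℚ QBar := qBar_isGalois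
  obtain ⟨u, hu⟩ := exists_smul_eq (Fermat.Agent.CFT.Local.padicPlace_liesOverPrime q) hA hq
  obtain ⟨L, hL, hLc⟩ := hlev
  haveI := hL
  set E := IntermediateField.normalClosure ℚ L QBar
  haveI : Normal ℚ E := normalClosure.normal ℚ _ QBar
  haveI : FiniteDimensional ℚ E := normalClosure.is_finiteDimensional ℚ _ QBar
  have hin : ∀ h : GQ, h ∈ inG q → u * h * u⁻¹ ∈ A.inertiaSubgroupIn ℚ := fun h hh => by
    have := (mem_inertia_smul_iff (g := u) (A := padicPlace q)).2 hh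
    rwa [hu] at this
  have hout : ∀ h : GQ, h ∈ A.inertiaSubgroupIn ℚ → u⁻¹ * h * u ∈ inG q := fun h hh => by
    have h1 : u * (u⁻¹ * h * u) * u⁻¹ ∈ A.inertiaSubgroupIn ℚ := by
      rwa [show u * (u⁻¹ * h * u) * u⁻¹ = h by group]
    rw [← hu] at h1
    exact (mem_inertia_smul_iff (g := u) (A := padicPlace q)).1 h1
  have hmv : ∀ h : GQ, (u⁻¹ * h * u) r₀ = r₀ ↔ h r₀ = r₀ := by
    intro h
    rw [AlgEquiv.mul_apply, AlgEquiv.mul_apply]
    refine (show u⁻¹ (h (u r₀)) = r₀ ↔ h (u r₀) = u r₀ from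
      ⟨fun e => ?_, fun e => by rw [e]; exact u.symm_apply_apply r₀⟩).trans ?_
    · have e' := congrArg u e
      rwa [show u (u⁻¹ (h (u r₀))) = h (u r₀) from u.apply_symm_apply _] at e'
    · rcases sqrt_cases hr u with hur | hur <;> simp [hur]
  have h := hom_inG_two q hq2 hX (c := fun h => c (u * h * u⁻¹))
    (fun a ha b hb => by
      rw [← hadd _ (hin a ha) _ (hin b hb)]
      exact congrArg c (by group))
    E (fun a ha hfix => hLc _ (hin a ha) fun y hy => by
      rw [AlgEquiv.mul_apply, AlgEquiv.mul_apply, hfix _ (?_ : u⁻¹ y ∈ E)]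
      · exact u.apply_symm_apply y
      · have := AlgEquiv.restrictNormal_commutes u⁻¹ E ⟨y, L.le_normalClosure hy⟩
        exact this ▸ (u⁻¹.restrictNormal E ⟨y, L.le_normalClosure hy⟩).2)
    (hout τ hτ) hr (fun e => hmove ((hmv τ).1 e)) (hout g hg)
  simp only [show ∀ x : GQ, u * (u⁻¹ * x * u) * u⁻¹ = x from fun x => by group] at h
  exact ⟨fun e => h.1 ((hmv g).2 e), fun e => h.2 fun e' => e ((hmv g).1 e')⟩

/-- A homomorphism of exponent two on inertia at an odd prime. -/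
theorem sq_one_inertia_two {q : ℕ} (hq : q.Prime) (hq2 : q ≠ 2) {A : ValuationSubring QBar}
    (hA : A.LiesOverPrime q) {M : Type} [Monoid M] (U : GQ →* M)
    (hlev : GaloisFactorsThroughFiniteLevel U)
    (hsq : ∀ g ∈ A.inertiaSubgroupIn ℚ, U g * U g = 1) {τ : GQ}
    (hτ : τ ∈ A.inertiaSubgroupIn ℚ) {r₀ : QBar} (hr : r₀ ^ 2 = (q : QBar))
    (hmove : τ r₀ ≠ r₀) {g : GQ} (hg : g ∈ A.inertiaSubgroupIn ℚ) :
    (g r₀ = r₀ → U g = 1) ∧ (g r₀ ≠ r₀ → U g = U τ) := by
  classical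
  let Φ : A.inertiaSubgroupIn ℚ →* Mˣ := U.toHomUnits.comp (A.inertiaSubgroupIn ℚ).subtype
  have hΦ : ∀ a, (Φ a : M) = U a := fun a => rfl
  have hexp : ∀ x : Φ.range, x * x = 1 := by
    rintro ⟨_, a, rfl⟩
    exact Subtype.ext (Units.ext (hsq a a.2))
  letI : CommGroup Φ.range :=
    { (inferInstance : Group Φ.range) with
      mul_comm := fun x y => by
        have h1 : ∀ z : Φ.range, z⁻¹ = z := fun z => inv_eq_of_mul_eq_one_left (hexp z)
        calc x * y = (x * y)⁻¹ := (h1 _).symm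
          _ = y * x := by rw [mul_inv_rev, h1, h1] }
  let c : GQ → Additive Φ.range := fun a =>
    if ha : a ∈ A.inertiaSubgroupIn ℚ then Additive.ofMul ⟨Φ ⟨a, ha⟩, ⟨a, ha⟩, rfl⟩ else 0
  obtain ⟨L, hL, hUL⟩ := hlev
  have h := hom_inertia_two hq hq2 hA (X := Additive Φ.range) (c := c)
    (fun x => by rw [← ofMul_toMul (x + x), toMul_add, hexp, ofMul_one])
    (fun a ha b hb => by
      simp only [c, dif_pos ha, dif_pos hb, dif_pos (mul_mem ha hb), ← ofMul_mul]
      refine congrArg Additive.ofMul (Subtype.ext ?_)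
      exact map_mul Φ ⟨a, ha⟩ ⟨b, hb⟩)
    ⟨L, hL, fun a ha hfix => by
      simp only [c, dif_pos ha]
      refine (congrArg Additive.ofMul (Subtype.ext (Units.ext ?_))).trans ofMul_one
      exact hUL a hfix⟩
    hτ hr hmove hg
  refine ⟨fun e => ?_, fun e => ?_⟩
  · have h' := congrArg (fun x : Additive Φ.range => ((x.toMul : Mˣ) : M)) (h.1 e)
    simpa [c, dif_pos hg, hΦ] using h'
  · have h' := congrArg (fun x : Additive Φ.range => ((x.toMul : Mˣ) : M)) (h.2 e)
    simpa [c, dif_pos hg, dif_pos hτ, hΦ] using h'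

end Fermat.Agent.RT.Two.Select

end
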