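import Fermat.Agent.RT.Two.Local.Defs

/-!
# Two by two matrices commuting with a residual matrix
-/

set_option autoImplicit false

noncomputable section

namespace Fermat.Agent.RT.Two.Select

open Fermat.Agent.Deform

variable {k : Type} [Field k]

/-- The centraliser of a nonscalar matrix. -/
theorem exists_smul_add_of_commute {M X : M2 k} (hM : ∀ c : k, M ≠ c • 1) (h : M * X = X * M) :
    ∃ a b : k, X = a • 1 + b • M := by
  have h00 := congrFun (congrFun h 0) 0
  have h01 := congrFun (congrFun h 0) 1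
  have h10 := congrFun (congrFun h 1) 0
  simp only [Matrix.mul_apply, Fin.sum_univ_two] at h00 h01 h10
  suffices ∃ b : k, X 0 1 = b * M 0 1 ∧ X 1 0 = b * M 1 0 ∧
      X 0 0 - X 1 1 = b * (M 0 0 - M 1 1) by
    obtain ⟨b, e1, e2, e3⟩ := this
    refine ⟨X 0 0 - b * M 0 0, b, ?_⟩
    ext i j
    fin_cases i <;> fin_cases j <;> simp [e1, e2]
    linear_combination -e3
  by_cases h1 : M 0 1 = 0
  · by_cases h2 : M 1 0 = 0
    · have h3 : M 0 0 - M 1 1 ≠ 0 := fun e => hM (M 0 0) (by
        ext i j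
        fin_cases i <;> fin_cases j <;> simp [h1, h2]
        linear_combination -e)
      refine ⟨(X 0 0 - X 1 1) / (M 0 0 - M 1 1), ?_, ?_, (div_mul_cancel₀ _ h3).symm⟩
      · rw [h1, mul_zero]
        exact (mul_eq_zero.1 (show X 0 1 * (M 0 0 - M 1 1) = 0 by
          linear_combination h01 + (X 0 0 - X 1 1) * h1)).resolve_right h3
      · rw [h2, mul_zero]
        exact (mul_eq_zero.1 (show X 1 0 * (M 0 0 - M 1 1) = 0 by
          linear_combination -h10 + (X 0 0 - X 1 1) * h2)).resolve_right h3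
    · refine ⟨X 1 0 / M 1 0, ?_, (div_mul_cancel₀ _ h2).symm, ?_⟩
      · rw [h1, mul_zero]
        exact (mul_eq_zero.1 (show X 0 1 * M 1 0 = 0 by
          linear_combination -h00 + X 1 0 * h1)).resolve_right h2
      · field_simp
        linear_combination h10
  · refine ⟨X 0 1 / M 0 1, (div_mul_cancel₀ _ h1).symm, ?_, ?_⟩
    · field_simp
      linear_combination h00
    · field_simp
      linear_combination -h01

variable [Algebra (ZMod 2) k]

theorem involution_cases : ∀ t : M2 (ZMod 2), t * t = 1 → t ≠ 1 →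
    t = !![1, 1; 0, 1] ∨ t = !![1, 0; 1, 1] ∨ t = !![0, 1; 1, 0] := by decide

/-- Matrices commuting with an involution are of the form `t m t - m`. -/
theorem exists_sub_of_commute [CharP k 2] {t : M2 (ZMod 2)} (ht : t * t = 1) (ht1 : t ≠ 1)
    {X : M2 k} (h : t.map (algebraMap (ZMod 2) k) * X = X * t.map (algebraMap (ZMod 2) k)) :
    ∃ m : M2 k, X = t.map (algebraMap (ZMod 2) k) * m * t.map (algebraMap (ZMod 2) k) - m := by
  have h2 := CharTwo.two_eq_zero (R := k)
  have h00 := congrFun (congrFun h 0) 0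
  have h01 := congrFun (congrFun h 0) 1
  have h10 := congrFun (congrFun h 1) 0
  rcases involution_cases t ht ht1 with rfl | rfl | rfl
  · refine ⟨!![X 0 1 - X 0 0, 0; X 0 0, 0], ?_⟩
    simp [Matrix.mul_apply, Fin.sum_univ_two] at h00 h01 h10
    ext i j
    fin_cases i <;> fin_cases j <;> simp [Matrix.mul_apply, Fin.sum_univ_two] <;> grind
  · refine ⟨!![X 1 0 - X 0 0, X 0 0; 0, 0], ?_⟩
    simp [Matrix.mul_apply, Fin.sum_univ_two] at h00 h01 h10
    ext i j
    fin_cases i <;> fin_cases j <;> simp [Matrix.mul_apply, Fin.sum_univ_two] <;> grind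
  · refine ⟨!![X 0 0, X 0 1; 0, 0], ?_⟩
    simp [Matrix.mul_apply, Fin.sum_univ_two] at h00 h01 h10
    ext i j
    fin_cases i <;> fin_cases j <;> simp [Matrix.mul_apply, Fin.sum_univ_two] <;> grind

end Fermat.Agent.RT.Two.Select

end
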