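import Fermat.Agent.RT.Two.Hecke.Interface
import Fermat.Agent.RT.Two.Select.Space
import Fermat.Agent.RT.Two.Select.InertiaTwo
import Fermat.Agent.RT.Two.Select.Linear
import Fermat.Agent.CFT.Tangent.BaseChange

/-!
# The first order classes of an auxiliary level

A derivation `δ : B → k` at the closed point of an auxiliary level gives an adjoint class; its
local behaviour outside `2 ∏ q i`, at the primes of `N` and at two is that of the global classes.
-/

set_option autoImplicit false
set_option linter.style.haveILetI false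
set_option linter.unusedSectionVars false

noncomputable section

namespace Fermat.Agent.RT.Two.Select

open IsLocalRing Fermat.Agent.Deform Fermat.Agent.Arith Fermat.Agent.CFT.Tangent
open scoped Pointwise

variable {O : Type} [CommRing O] [IsDomain O] [IsDiscreteValuationRing O]
  [IsAdicComplete (maximalIdeal O) O] [Finite (ResidueField O)] [CharZero O]
  [Algebra (ZMod 2) (ResidueField O)]
variable {N m : ℕ} {T : TwoSetup O N m} {μ : ℕ} {L : TwoLevel T μ}

/-- A derivation at the closed point. -/
structure IsTangent (L : TwoLevel T μ) (δ : L.B → ResidueField O) : Prop where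
  add : ∀ a b, δ (a + b) = δ a + δ b
  mul : ∀ a b, δ (a * b) = L.aug a * δ b + L.aug b * δ a
  alg : ∀ c : O, δ (algebraMap O L.B c) = 0

/-- The residual representation over the residue field. -/
abbrev res (T : TwoSetup O N m) : GQ →* M2 (ResidueField O) :=
  Local.extRep (ResidueField O) T.r₂

theorem charP_res : CharP (ResidueField O) 2 := Local.charP_two

theorem R_map_aug (L : TwoLevel T μ) (g : GQ) : (L.R g).map L.aug = res T g := L.R_aug g

theorem res_mul_inv (g : GQ) : res T g * res T g⁻¹ = 1 := CFT.Tangent.map_mul_inv _ g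

theorem res_inv_mul (g : GQ) : res T g⁻¹ * res T g = 1 := CFT.Tangent.map_inv_mul _ g

theorem res_det (g : GQ) : (res T g).det = 1 := by
  have h : (T.r₂ g).det = 1 := Fin.eq_one_of_ne_zero _ (CFT.Tangent.det_map_ne_zero T.r₂ g)
  have h2 := RingHom.map_det (algebraMap (ZMod 2) (ResidueField O)) (T.r₂ g)
  rw [h, map_one] at h2
  exact h2.symm

theorem aug_surjective (L : TwoLevel T μ) : Function.Surjective L.aug := fun z => by
  obtain ⟨c, rfl⟩ := residue_surjective z
  exact ⟨algebraMap O L.B c, L.aug.commutes c⟩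

theorem aug_eq_zero_iff (L : TwoLevel T μ) (a : L.B) : L.aug a = 0 ↔ a ∈ maximalIdeal L.B := by
  rw [← eq_maximalIdeal (RingHom.ker_isMaximal_of_surjective (L.aug : L.B →+* ResidueField O)
    (aug_surjective L))]
  rfl

/-- The class of a derivation. -/
def cls (L : TwoLevel T μ) (δ : L.B → ResidueField O) (g : GQ) : M2 (ResidueField O) :=
  (L.R g).map δ * res T g⁻¹

theorem cls_mul_res (δ : L.B → ResidueField O) (g : GQ) :
    cls L δ g * res T g = (L.R g).map δ := by
  rw [cls, mul_assoc, res_inv_mul, mul_one]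

variable {δ : L.B → ResidueField O}

namespace IsTangent

variable (h : IsTangent L δ)
include h

theorem map_zero' : δ 0 = 0 := by simpa using h.alg 0

theorem map_one' : δ 1 = 0 := by simpa using h.alg 1

theorem map_natCast' (n : ℕ) : δ (n : L.B) = 0 := by simpa using h.alg (n : O)

theorem map_sub' (a b : L.B) : δ (a - b) = δ a - δ b := by
  have h' := h.add (a - b) b
  rw [sub_add_cancel] at h'
  rw [h', add_sub_cancel_right]

theorem map_mat_mul (X Y : M2 L.B) :
    (X * Y).map δ = X.map L.aug * Y.map δ + X.map δ * Y.map L.aug := by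
  ext i j
  simp [Matrix.mul_apply, Fin.sum_univ_two, h.add, h.mul]
  ring

theorem map_mat_one : (1 : M2 L.B).map δ = 0 := by
  ext i j
  fin_cases i <;> fin_cases j <;> simp [h.map_zero', h.map_one']

theorem trace_map (X : M2 L.B) : (X.map δ).trace = δ X.trace := by
  rw [Matrix.trace_fin_two, Matrix.trace_fin_two, h.add]
  rfl

theorem det_map (X : M2 L.B) :
    δ X.det = ((X.map L.aug).adjugate * X.map δ).trace := by
  rw [Matrix.det_fin_two, h.map_sub', h.mul, h.mul]
  simp [Matrix.adjugate_fin_two, Matrix.trace_fin_two, Matrix.vecMul, dotProduct,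
    Fin.sum_univ_two]
  ring

theorem cls_isAdCocycle : IsAdCocycle (res T) (cls L δ) := by
  intro g g'
  rw [cls, map_mul, h.map_mat_mul, R_map_aug, R_map_aug, mul_inv_rev, map_mul, ← cls_mul_res δ g,
    ← cls_mul_res δ g', add_mul]
  have e : ∀ x, res T x * res T x⁻¹ = 1 := res_mul_inv
  simp only [mul_assoc]
  congr 1
  · rw [← mul_assoc (res T g') (res T g'⁻¹), e, one_mul]
  · rw [← mul_assoc (res T g') (res T g'⁻¹), e, one_mul, e, mul_one]

theorem map_sq_eq_zero {a : L.B} (ha : a ∈ maximalIdeal L.B ^ 2) : δ a = 0 := by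
  rw [pow_two] at ha
  refine Submodule.mul_induction_on ha (fun x hx y hy => ?_) fun x y hx hy => ?_
  · rw [h.mul, (aug_eq_zero_iff L x).2 hx, (aug_eq_zero_iff L y).2 hy, zero_mul, zero_mul,
      add_zero]
  · rw [h.add, hx, hy, add_zero]

/-- A common level of the residual representation and the entries. -/
theorem exists_level : ∃ E : IntermediateField ℚ QBar, FiniteDimensional ℚ E ∧
    ∀ g : GQ, (∀ y ∈ E, g y = y) → res T g = 1 ∧ (L.R g).map δ = 0 := by
  obtain ⟨E, hE, hE'⟩ := L.cont 2
  refine ⟨E, hE, fun g hg => ⟨?_, ?_⟩⟩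
  · rw [← R_map_aug L]
    ext i j
    have h1 := (aug_eq_zero_iff L _).2 (Ideal.pow_le_self two_ne_zero (hE' g hg i j))
    rw [map_sub, sub_eq_zero] at h1
    rw [Matrix.map_apply, h1]
    by_cases hij : i = j
    · subst hij; simp
    · simp [hij]
  · ext i j
    have h1 := h.map_sq_eq_zero (hE' g hg i j)
    rw [h.map_sub', sub_eq_zero] at h1
    rw [Matrix.map_apply, h1]
    exact congrFun (congrFun h.map_mat_one i) j

theorem cls_isFiniteLevel : IsFiniteLevel (cls L δ) := by
  obtain ⟨E, hE, hE'⟩ := h.exists_level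
  exact ⟨E, hE, fun g hg => by rw [cls, (hE' g hg).2, zero_mul]⟩

theorem cls_one : cls L δ 1 = 0 := by
  rw [cls, map_one, h.map_mat_one, zero_mul]

theorem trace_cls_mul (g : GQ) : (cls L δ g * res T g).trace = δ (L.R g).trace := by
  rw [cls_mul_res, h.trace_map]

theorem trace_cls (g : GQ) : (cls L δ g).trace = δ (L.R g).det := by
  rw [h.det_map, R_map_aug, ← cls_mul_res δ g, ← mul_assoc, Matrix.trace_mul_cycle,
    Matrix.mul_adjugate, res_det, one_smul, one_mul]

theorem cls_eq_zero_of_eq_one {g : GQ} (hg : L.R g = 1) : cls L δ g = 0 := by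
  rw [cls, hg, h.map_mat_one, zero_mul]

/-- The point with values in the dual numbers. -/
def point : L.B →+* DualNumber (ResidueField O) where
  toFun a := TrivSqZeroExt.inl (L.aug a) + TrivSqZeroExt.inr (δ a)
  map_one' := TrivSqZeroExt.ext (by simp) (by simp [h.map_one'])
  map_zero' := TrivSqZeroExt.ext (by simp) (by simp [h.map_zero'])
  map_add' a b := TrivSqZeroExt.ext (by simp) (by simp [h.add])
  map_mul' a b := TrivSqZeroExt.ext (by simp) (by simp [h.mul]; ring)

theorem fst_point (a : L.B) : TrivSqZeroExt.fst (h.point a) = L.aug a := by simp [point]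

theorem snd_point (a : L.B) : TrivSqZeroExt.snd (h.point a) = δ a := by simp [point]

theorem isLocalHom_point : IsLocalHom h.point := by
  refine ⟨fun a ha => ?_⟩
  rw [TrivSqZeroExt.isUnit_iff_isUnit_fst, fst_point] at ha
  by_contra hna
  exact ha.ne_zero ((aug_eq_zero_iff L a).2 hna)

theorem point_surjective {b : L.B} (hb : L.aug b = 0) (hδb : δ b ≠ 0) :
    Function.Surjective h.point := fun z => by
  obtain ⟨u, hu⟩ := residue_surjective (TrivSqZeroExt.fst z)
  obtain ⟨v, hv⟩ := residue_surjective (TrivSqZeroExt.snd z / δ b)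
  refine ⟨algebraMap O L.B u + algebraMap O L.B v * b, TrivSqZeroExt.ext ?_ ?_⟩
  · rw [fst_point, map_add, map_mul, hb, mul_zero, add_zero, L.aug.commutes]
    exact hu
  · rw [snd_point, h.add, h.alg, zero_add, h.mul, h.alg, mul_zero, add_zero, L.aug.commutes]
    rw [show algebraMap O (ResidueField O) v = _ from hv, div_mul_cancel₀ _ hδb]

theorem fstM_point (g : GQ) : fstM (mapM h.point L.R g) = res T g := by
  rw [← R_map_aug L]
  exact Matrix.ext fun i j => h.fst_point _

theorem sndM_point (g : GQ) : sndM (mapM h.point L.R g) = cls L δ g * res T g := by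
  rw [cls_mul_res]
  exact Matrix.ext fun i j => h.snd_point _

theorem point_lift (g : GQ) :
    mapM h.point L.R g = (1 + epsM (cls L δ g)) * inlM (res T g) := by
  refine dualM_ext ?_ ?_
  · rw [fstM_point]; simp
  · rw [sndM_point]; simp

theorem cls_eq_of_point_eq {g g' : GQ} (e : mapM h.point L.R g = mapM h.point L.R g') :
    res T g = res T g' ∧ cls L δ g = cls L δ g' := by
  have e1 := congrArg fstM e
  rw [h.fstM_point, h.fstM_point] at e1
  have e2 := congrArg sndM e
  rw [h.sndM_point, h.sndM_point, ← e1] at e2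
  refine ⟨e1, ?_⟩
  have e3 := congrArg (· * res T g⁻¹) e2
  simpa [mul_assoc, res_mul_inv] using e3

/-- A flat level gives a class in the local condition at two. -/
theorem cls_mem_localTwo (hR : IsResidualTwo T.r₂ N) {b : L.B} (hb : L.aug b = 0)
    (hδb : δ b ≠ 0) : cls L δ ∈ Local.localTwo (res T) := by
  refine Local.mem_localTwo_of_flat hR.ss h.cls_isAdCocycle h.cls_isFiniteLevel ?_
  letI := h.point.toAlgebra
  refine Local.isFlatClassTwo_of_isFlatAt
    ((Pi.basisFun L.B (Fin 2)).baseChange (DualNumber (ResidueField O)))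
    (CFT.Tangent.IsFlatAt.baseChange h.point h.isLocalHom_point (h.point_surjective hb hδb) L.flat)
    fun σ => ?_
  refine (DFunLike.congr_fun (matOf_baseChangeAlong h.point h.isLocalHom_point (toRep L.R L.cont)
    (Pi.basisFun L.B (Fin 2))) σ).trans ?_
  rw [matOf_toRep]
  exact h.point_lift σ

theorem cls_unramified {v : ℕ} (hv : v.Prime) (hvN : ¬ v ∣ 2 * N) (hvq : ∀ i, v ≠ T.q i)
    {A : ValuationSubring QBar} (hA : A.LiesOverPrime v) {g : GQ}
    (hg : g ∈ A.inertiaSubgroupIn ℚ) : cls L δ g = 0 := by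
  refine h.cls_eq_zero_of_eq_one (L.unramified v hv (fun hd => ?_) A hA g hg)
  rcases (Nat.Prime.dvd_mul hv).1 hd with h2 | h2
  · exact hvN (h2.mul_right N)
  rcases (Nat.Prime.dvd_mul hv).1 h2 with h3 | h3
  · exact hvN (h3.mul_left 2)
  · obtain ⟨i, -, hi⟩ := (Prime.dvd_finsetProd_iff hv.prime T.q).1 h3
    exact hvq i ((Nat.prime_dvd_prime_iff_eq hv (T.q_prime i)).1 hi)

/-- At a prime of `N` the class is a coboundary on inertia. -/
theorem cls_cobd_at (hR : IsResidualTwo T.r₂ N) {v : ℕ} (hv : v.Prime) (hvN : v ∣ N)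
    {A : ValuationSubring QBar} (hA : A.LiesOverPrime v) :
    ∃ M : M2 (ResidueField O), ∀ g ∈ A.inertiaSubgroupIn ℚ,
      cls L δ g = res T g * M * res T g⁻¹ - M := by
  haveI := charP_res (O := O)
  have hv2 : v ≠ 2 := fun e => by
    rw [e] at hvN
    exact (Nat.not_even_iff_odd.mpr hR.odd) (even_iff_two_dvd.mpr hvN)
  set U := mapM h.point L.R with hU
  have h2 : (2 : DualNumber (ResidueField O)) = 0 := by
    rw [show (2 : DualNumber (ResidueField O)) =
      algebraMap (ResidueField O) (DualNumber (ResidueField O)) 2 from (map_ofNat _ 2).symm,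
      CharTwo.two_eq_zero, map_zero]
  have hneg : ∀ z : DualNumber (ResidueField O), -z = z := fun z => by
    linear_combination (-z) * h2
  have hsq : ∀ g ∈ A.inertiaSubgroupIn ℚ, U g * U g = 1 := by
    intro g hg
    obtain ⟨htr, hdet⟩ := L.unipotent v hv hvN A hA g hg
    have hX : L.R g * L.R g = (L.R g).trace • L.R g - (L.R g).det • 1 := by
      ext i j
      fin_cases i <;> fin_cases j <;>
        simp [Matrix.mul_apply, Fin.sum_univ_two, Matrix.trace_fin_two, Matrix.det_fin_two] <;> ring
    rw [htr, hdet, one_smul] at hX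
    rw [← map_mul]
    refine Matrix.ext fun i j => ?_
    rw [hU, mapM_apply, map_mul, hX, Matrix.sub_apply, Matrix.smul_apply, smul_eq_mul, map_sub,
      map_mul, map_ofNat, h2, zero_mul, zero_sub, hneg]
    by_cases hij : i = j
    · subst hij; simp
    · simp [hij]
  have hlev : GaloisFactorsThroughFiniteLevel U := by
    obtain ⟨E, hE, hE'⟩ := h.exists_level
    refine ⟨E, hE, fun g hg => dualM_ext ?_ ?_⟩
    · rw [h.fstM_point, (hE' g hg).1, fstM_one]
    · rw [h.sndM_point, cls_mul_res, (hE' g hg).2, sndM_one]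
  obtain ⟨g₀, hg₀, hg₀1⟩ := hR.ramified v hv hvN A hA
  haveI : Fact v.Prime := ⟨hv⟩
  obtain ⟨s', t', ht'⟩ := Recip.exists_tamePair v hv2 hA
  obtain ⟨r₀, hr⟩ := IsAlgClosed.exists_pow_nat_eq (v : QBar) two_pos
  have hdich : ∀ g ∈ A.inertiaSubgroupIn ℚ, U g = 1 ∨ U g = U g₀ := by
    have hkey := fun g hg => sq_one_inertia_two hv hv2 hA U hlev hsq ht'.inertia hr
      (ht'.moves r₀ hr) (g := g) hg
    have hres : ∀ g, U g = 1 → T.r₂ g = 1 := fun g e => by
      have e1 := congrArg fstM e
      rw [h.fstM_point, fstM_one] at e1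
      ext i j
      refine (algebraMap (ZMod 2) (ResidueField O)).injective ?_
      have := congrFun (congrFun e1 i) j
      rw [show res T g i j = algebraMap (ZMod 2) (ResidueField O) (T.r₂ g i j) from rfl] at this
      rw [this]
      by_cases hij : i = j
      · subst hij; simp
      · simp [hij]
    intro g hg
    by_cases hfix : g r₀ = r₀
    · exact Or.inl ((hkey g hg).1 hfix)
    · refine Or.inr (((hkey g hg).2 hfix).trans ?_)
      exact ((hkey g₀ hg₀).2 fun e => hg₀1 (hres g₀ ((hkey g₀ hg₀).1 e))).symm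
  have hg₀sq := hR.unipotent v hv hvN A hA g₀ hg₀
  rw [pow_two] at hg₀sq
  set t := res T g₀
  have htt : t * t = 1 := by
    show Local.extRep _ T.r₂ g₀ * Local.extRep _ T.r₂ g₀ = 1
    rw [← map_mul]
    exact Local.extRep_eq_one (by rw [map_mul, hg₀sq])
  have hinv : res T g₀⁻¹ = t := by
    calc res T g₀⁻¹ = res T g₀⁻¹ * (t * t) := by rw [htt, mul_one]
      _ = t := by rw [← mul_assoc, res_inv_mul, one_mul]
  have hcomm : t * cls L δ g₀ = cls L δ g₀ * t := by
    have h1 := h.cls_isAdCocycle g₀ g₀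
    have h0 : cls L δ (g₀ * g₀) = 0 := by
      have e : U (g₀ * g₀) = U 1 := by rw [map_mul, hsq g₀ hg₀, map_one]
      rw [(h.cls_eq_of_point_eq e).2, h.cls_one]
    rw [h0, hinv] at h1
    have h3 : t * cls L δ g₀ * t = cls L δ g₀ := by
      rw [eq_neg_of_add_eq_zero_left h1.symm]
      ext a b
      exact CharTwo.neg_eq _
    conv_rhs => rw [← h3]
    rw [mul_assoc (t * cls L δ g₀), htt, mul_one]
  obtain ⟨M, hM⟩ := exists_sub_of_commute (t := T.r₂ g₀) hg₀sq hg₀1 hcomm
  refine ⟨M, fun g hg => ?_⟩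
  rcases hdich g hg with e | e
  · rw [← map_one U] at e
    obtain ⟨e1, e2⟩ := h.cls_eq_of_point_eq e
    rw [map_one] at e1
    rw [e2, h.cls_one, e1, show res T g⁻¹ = 1 by
      calc res T g⁻¹ = res T g * res T g⁻¹ := by rw [e1, one_mul]
        _ = 1 := res_mul_inv g, one_mul, mul_one, sub_self]
  · obtain ⟨e1, e2⟩ := h.cls_eq_of_point_eq e
    rw [e2, e1, show res T g⁻¹ = t by
      rw [← hinv]
      calc res T g⁻¹ = res T g⁻¹ * (res T g₀ * res T g₀⁻¹) := by rw [res_mul_inv, mul_one]
        _ = res T g₀⁻¹ := by rw [← mul_assoc, ← e1, res_inv_mul, one_mul]]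
    exact hM

end IsTangent

end Fermat.Agent.RT.Two.Select

end
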